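import Fermat.Agent.MU.S56.W4.C.S.Defs
import Fermat.Agent.MU.E.Desc.FlatAsmK
import Fermat.Agent.MU.S56.W4.C.S.Main
import Fermat.Agent.S56.W3.TW.Lies
import Fermat.Agent.MU.S56.W4.C.TR.Defs
import Fermat.Agent.MU.Lib.FFL.Red
import Fermat.Agent.MU.F4.Dict.PlaceSurj
import Fermat.Agent.MU.Lib.TameInertia.Local
import Fermat.Agent.Lib.FrobDensity.Bridge
import Fermat.Agent.MU.S56.W3.TW.Gen
import Fermat.Agent.MU.S56.W3.TW.Asm
import Fermat.Agent.S56.W3.TW.LinAlg
import Fermat.Agent.MU.S56.W4.C.TR.Val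
import Fermat.Agent.MU.S56.W4.C.D.Final

section MergeWrap_S56_W4_C_S_Fix -- from S56/W4/C/S/Fix.lean

set_option autoImplicit false

namespace Fermat.Agent.S56.SS

open Fermat.Agent.F4 ExtCitation Fermat.Agent.FFL Fermat.Agent.FlatMod

local notation "Kb" => AlgebraicClosure ℚ
local notation "GK" => (AlgebraicClosure ℚ ≃ₐ[ℚ] AlgebraicClosure ℚ)

/-- the action of a Hopf order commutes with multiples. -/
theorem fix_act_nsmul {p : ℕ} {W : Type*} [AddCommGroup W] {act : GK → W → W}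
    (O : HopfOrder p W act) (σ : GK) (m : ℕ) (w : W) : act σ (m • w) = m • act σ w := by
  induction m with
  | zero => rw [zero_smul, zero_smul, O.act_zero]
  | succ m ih => rw [succ_nsmul, succ_nsmul, O.act_add, ih]

/-- the action of a Hopf order is injective. -/
theorem fix_act_injective {p : ℕ} {W : Type*} [AddCommGroup W] {act : GK → W → W}
    (O : HopfOrder p W act) (σ : GK) : Function.Injective (act σ) := by
  intro x y hxy
  have h1 : act σ⁻¹ (act σ x) = act σ⁻¹ (act σ y) := by rw [hxy]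
  rw [← hopfOrder_act_mul O, ← hopfOrder_act_mul O, inv_mul_cancel, hopfOrder_act_one O,
    hopfOrder_act_one O] at h1
  exact h1

/-- **FIX**. -/
theorem noFixedProp (p : ℕ) (P : ValuationSubring Kb) : NoFixedProp p P := by
  intro hp hp2 hP W _ act hflat haug w hw
  classical
  by_contra hw0
  have : Fact p.Prime := ⟨hp⟩
  obtain ⟨O⟩ := nonempty_hopfOrder_of_isFlat hflat
  have hfin : Finite W := O.finite_W
  -- a fixed point of prime order
  obtain ⟨m, ℓ, hℓ, hℓw, hmin⟩ := ma_exists_prime_order (⊥ : AddSubgroup W) (x := w)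
    (by rwa [AddSubgroup.mem_bot])
  have : Fact ℓ.Prime := ⟨hℓ⟩
  have : NeZero ℓ := ⟨hℓ.ne_zero⟩
  set w₁ : W := m • w with hw₁
  have hℓw' : ℓ • w₁ = 0 := by rwa [AddSubgroup.mem_bot] at hℓw
  have hw₁fix : ∀ σ ∈ P.inertiaSubgroupIn ℚ, act σ w₁ = w₁ := fun σ hσ => by
    rw [hw₁, fix_act_nsmul O, hw σ hσ]
  -- the embedding of `ℤ/ℓ`
  let ι : ZMod ℓ →+ W := ZMod.lift ℓ ⟨zmultiplesHom W w₁, by
    show ((ℓ : ℕ) : ℤ) • w₁ = 0
    rw [natCast_zsmul]; exact hℓw'⟩
  have hιval : ∀ c : ZMod ℓ, ι c = c.val • w₁ := by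
    intro c
    have h1 : ι ((c.val : ℤ) : ZMod ℓ) = zmultiplesHom W w₁ (c.val : ℤ) :=
      ZMod.lift_coe ℓ _ _
    have h2 : ((c.val : ℤ) : ZMod ℓ) = c := by
      rw [Int.cast_natCast, ZMod.natCast_zmod_val]
    rw [h2] at h1
    rw [h1]
    show ((c.val : ℕ) : ℤ) • w₁ = c.val • w₁
    rw [natCast_zsmul]
  have hι1 : ι 1 = w₁ := by
    rw [hιval, ZMod.val_one, one_smul]
  have hιker : ∀ c : ZMod ℓ, ι c = 0 → c = 0 := by
    intro c hc
    by_contra hc0
    have hpos : 0 < c.val := Nat.pos_of_ne_zero (fun h => hc0 ((ZMod.val_eq_zero c).1 h))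
    have := hmin c.val hpos (ZMod.val_lt c)
    apply this
    rw [AddSubgroup.mem_bot, ← hιval]
    exact hc
  have hιinj : Function.Injective ι := (injective_iff_map_eq_zero ι).2 hιker
  have hιfix : ∀ σ ∈ P.inertiaSubgroupIn ℚ, ∀ c : ZMod ℓ, act σ (ι c) = ι c := by
    intro σ hσ c
    rw [hιval, fix_act_nsmul O, hw₁fix σ hσ]
  -- the family of functions on `ℤ/ℓ`
  let A : Set (ZMod ℓ → Kb) := {f | ∃ g ∈ spanB P O, f = fun c => g (ι c)}
  refine coreProp hp hp2 P hP ℓ A ?_ ?_ ?_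
  · -- comultiplication
    rintro f ⟨g, hg, rfl⟩
    obtain ⟨n, g', h', hg', hh', hgh⟩ := spanB_comulClosed P O g hg
    refine ⟨n, fun i c => g' i (ι c), fun i c => h' i (ι c), fun i => ⟨g' i, hg' i, rfl⟩,
      fun i => ⟨h' i, hh' i, rfl⟩, fun c c' => ?_⟩
    show g (ι (c + c')) = _
    rw [map_add, hgh]
  · -- indicator functions
    have h1 : ∀ c : ZMod ℓ, ∃ N : ℕ, ∀ n, N ≤ n →
        (fun x : W => (p : Kb) ^ n * (if x = ι c then (1 : Kb) else 0)) ∈ spanB P O := by
      intro c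
      refine spanB_full P hP (dvdProp hp hP) O (fun x => if x = ι c then (1 : Kb) else 0) ?_
      intro σ hσ x
      by_cases hx : x = ι c
      · rw [if_pos hx, if_pos (by rw [hx]; exact hιfix σ hσ c), map_one]
      · have hx' : act σ x ≠ ι c := by
          intro h
          apply hx
          apply fix_act_injective O σ
          rw [h, hιfix σ hσ c]
        rw [if_neg hx, if_neg hx', map_zero]
    choose N hN using h1
    refine ⟨Finset.univ.sup N, fun c => ⟨_, hN c _ (Finset.le_sup (Finset.mem_univ c)), ?_⟩⟩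
    funext c'
    by_cases hc : c' = c
    · rw [if_pos hc, if_pos (by rw [hc]), mul_one]
    · rw [if_neg hc, if_neg (fun h => hc (hιinj h)), mul_zero]
  · -- congruence modulo `p`
    rintro f ⟨g, hg, rfl⟩
    show (g (ι 1) - g (ι 0)) / (p : Kb) ∈ P
    rw [hι1, map_zero]
    have hred : w₁ ∈ redKer P (O.alg : Set (W → Kb)) := augI_subset_redKer O hP (haug w₁)
    refine unrProp p hp P hP _ (spanB_sub_mem_nonunits P O hg hred) (fun σ hσ => ?_)
    rw [map_sub, ← spanB_equiv P O hg σ hσ, ← spanB_equiv P O hg σ hσ, hw₁fix σ hσ, O.act_zero]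

end Fermat.Agent.S56.SS
end MergeWrap_S56_W4_C_S_Fix

section MergeWrap_S56_W4_C_S_Sub -- from S56/W4/C/S/Sub.lean

set_option autoImplicit false

namespace Fermat.Agent.S56.SS

open Fermat.Agent.F4 ExtCitation Fermat.Agent.FFL Fermat.Agent.FlatMod

local notation "Kb" => AlgebraicClosure ℚ
local notation "GK" => (AlgebraicClosure ℚ ≃ₐ[ℚ] AlgebraicClosure ℚ)

section

variable {p : ℕ} {W : Type*} [AddCommGroup W] {act : GK → W → W}

/-- The `R'`-span of a Hopf order, as a subalgebra. -/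
noncomputable def subSpanAlg (P : ValuationSubring Kb) (O : HopfOrder p W act) :
    Subalgebra (inertiaRing P) (W → Kb) where
  carrier := spanB P O
  mul_mem' := fun hf hg => spanB_mul_mem P O hf hg
  add_mem' := fun hf hg => (spanB P O).add_mem hf hg
  algebraMap_mem' := fun r => spanB_const_mem P O r.2

theorem mem_subSpanAlg (P : ValuationSubring Kb) (O : HopfOrder p W act) (f : W → Kb) :
    f ∈ subSpanAlg P O ↔ f ∈ spanB P O := Iff.rfl

/-- Restriction of functions to a subgroup, as a homomorphism of `R'`-algebras. -/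
noncomputable def subRestr (P : ValuationSubring Kb) (N : AddSubgroup W) :
    (W → Kb) →ₐ[inertiaRing P] (N → Kb) :=
  AlgHom.pi (fun n : N => Pi.evalAlgHom (inertiaRing P) (fun _ : W => Kb) (n : W))

theorem subRestr_apply (P : ValuationSubring Kb) (N : AddSubgroup W) (g : W → Kb) (n : N) :
    subRestr P N g n = g (n : W) := rfl

/-- The restrictions to `N` of the functions of the `R'`-span of a Hopf order. -/
noncomputable def subAlg (P : ValuationSubring Kb) (O : HopfOrder p W act) (N : AddSubgroup W) :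
    Subalgebra (inertiaRing P) (N → Kb) :=
  (subSpanAlg P O).map (subRestr P N)

theorem mem_subAlg (P : ValuationSubring Kb) (O : HopfOrder p W act) (N : AddSubgroup W)
    (f : N → Kb) : f ∈ subAlg P O N ↔ ∃ g ∈ spanB P O, f = fun n : N => g (n : W) := by
  constructor
  · rintro ⟨g, hg, rfl⟩
    exact ⟨g, hg, rfl⟩
  · rintro ⟨g, hg, rfl⟩
    exact ⟨g, hg, rfl⟩

theorem sub_fg [Fact p.Prime] (P : ValuationSubring Kb) (hP : P.LiesOverPrime p)
    (O : HopfOrder p W act) (N : AddSubgroup W) :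
    (Subalgebra.toSubmodule (subAlg P O N)).FG := by
  have h1 : Subalgebra.toSubmodule (subAlg P O N) =
      (spanB P O).map (subRestr P N).toLinearMap := by
    ext f
    rw [Subalgebra.mem_toSubmodule, mem_subAlg, Submodule.mem_map]
    constructor
    · rintro ⟨g, hg, rfl⟩
      exact ⟨g, hg, rfl⟩
    · rintro ⟨g, hg, rfl⟩
      exact ⟨g, hg, rfl⟩
  rw [h1]
  refine Submodule.FG.map _ ?_
  rw [spanB_eq_span_range P hP O]
  exact Submodule.fg_span (Set.finite_range _)

theorem sub_span_top [Fact p.Prime] (P : ValuationSubring Kb) (O : HopfOrder p W act)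
    (N : AddSubgroup W) :
    Submodule.span Kb ((subAlg P O N : Subalgebra (inertiaRing P) (N → Kb)) : Set (N → Kb)) =
      ⊤ := by
  classical
  rw [eq_top_iff]
  intro f _
  obtain ⟨a, ha⟩ := exists_coeff O
    (fun w : W => if h : w ∈ N then f ⟨w, h⟩ else 0)
  have h1 : f = ∑ i, a i • (fun n : N => spanFun O i (n : W)) := by
    funext n
    have h2 := congrFun ha (n : W)
    rw [dif_pos n.2] at h2
    rw [show f n = f ⟨(n : W), n.2⟩ from rfl, h2]
    simp only [Finset.sum_apply, Pi.smul_apply]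
  rw [h1]
  refine Submodule.sum_mem _ (fun i _ => Submodule.smul_mem _ _ (Submodule.subset_span ?_))
  exact (mem_subAlg P O N _).2 ⟨spanFun O i, subset_spanB P O (spanFun_mem O i), rfl⟩

end

/-- **SUB**. -/
theorem subOrdProp (p : ℕ) (P : ValuationSubring Kb) : SubOrdProp p P := by
  intro hp hP W _ act hflat N actN hN
  have : Fact p.Prime := ⟨hp⟩
  obtain ⟨O⟩ := nonempty_hopfOrder_of_isFlat hflat
  refine ⟨{ alg := subAlg P O N
            fg := sub_fg P hP O N
            equiv := ?_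
            int := ?_
            comul := ?_
            neg := ?_
            span := sub_span_top P O N }, ?_⟩
  · intro f hf σ hσ n
    obtain ⟨g, hg, rfl⟩ := (mem_subAlg P O N f).1 hf
    show g ((actN σ n : N) : W) = σ (g (n : W))
    rw [hN σ hσ n]
    exact spanB_equiv P O hg σ hσ (n : W)
  · intro f hf n
    obtain ⟨g, hg, rfl⟩ := (mem_subAlg P O N f).1 hf
    exact spanB_mem P hP O hg (n : W)
  · intro f hf
    obtain ⟨g, hg, rfl⟩ := (mem_subAlg P O N f).1 hf
    obtain ⟨m, g', h', hg', hh', hgh⟩ := spanB_comulClosed P O g hg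
    refine ⟨m, fun i n => g' i (n : W), fun i n => h' i (n : W),
      fun i => (mem_subAlg P O N _).2 ⟨g' i, hg' i, rfl⟩,
      fun i => (mem_subAlg P O N _).2 ⟨h' i, hh' i, rfl⟩, fun n n' => ?_⟩
    show g (((n + n' : N)) : W) = _
    rw [AddSubgroup.coe_add, hgh]
  · intro f hf
    obtain ⟨g, hg, rfl⟩ := (mem_subAlg P O N f).1 hf
    refine (mem_subAlg P O N _).2 ⟨fun w => g (-w), spanB_comp_neg_mem P O hg, ?_⟩
    funext n
    show g (((-n : N)) : W) = g (-(n : W))
    rw [AddSubgroup.coe_neg]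
  · intro n hn f hf
    obtain ⟨g, hg, rfl⟩ := (mem_subAlg P O N f).1 hf
    show g (n : W) - g (((0 : N)) : W) ∈ P.nonunits
    rw [AddSubgroup.coe_zero]
    exact spanB_sub_mem_nonunits P O hg (augI_subset_redKer O hP hn)

end Fermat.Agent.S56.SS
end MergeWrap_S56_W4_C_S_Sub

section MergeWrap_S56_W4_C_S_NoA -- from S56/W4/C/S/NoA.lean

set_option autoImplicit false
set_option linter.unusedSectionVars false

namespace Fermat.Agent.S56.SS

open Fermat.Agent.F4 ExtCitation Fermat.Agent.FFL Fermat.Agent.FlatMod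

local notation "Kb" => AlgebraicClosure ℚ
local notation "GK" => (AlgebraicClosure ℚ ≃ₐ[ℚ] AlgebraicClosure ℚ)

variable (p : ℕ) [Fact p.Prime]

/-- the place at `p` lies over `p`. -/
theorem noa_liesOver : (Pp p).LiesOverPrime p :=
  Fermat.Agent.S56.primeLocalPlace_liesOverPrime (pPrime p)

/-- the solutions of `c ^ p = c` in a field of characteristic `p` are the natural numbers. -/
theorem noa_exists_natCast {k : Type*} [Field k] (hchar : (p : k) = 0) {c : k}
    (hc : c ^ p = c) : ∃ a : ℕ, (a : k) = c := by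
  have : CharP k p := (CharP.charP_iff_prime_eq_zero Fact.out).2 hchar
  have h1 : c ∈ (⊥ : Subfield k) := (Subfield.mem_bot_iff_pow_eq_self k p).2 hc
  obtain ⟨n, hn⟩ := (mem_bot_iff_intCast p k).1 h1
  have hp0 : (0 : ℤ) < p := by exact_mod_cast (Fact.out : p.Prime).pos
  refine ⟨(n % p).toNat, ?_⟩
  have h2 : ((n % p).toNat : ℤ) = n % p := Int.toNat_of_nonneg (Int.emod_nonneg n hp0.ne')
  have h3 : (((n % p).toNat : ℕ) : k) = ((n % p : ℤ) : k) := by
    rw [← Int.cast_natCast (R := k), h2]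
  rw [h3, ← hn]
  have h4 : n = n % p + p * (n / p) := (Int.emod_add_mul_ediv n p).symm
  conv_rhs => rw [h4]
  rw [Int.cast_add, Int.cast_mul, Int.cast_natCast, hchar, zero_mul, add_zero]

/-- every automorphism acts on `μ_p` as a power map. -/
theorem noa_exists_pow (σ : GK) :
    ∃ a : ℕ, ∀ μ : Kb, μ ^ p = 1 → σ μ = μ ^ a := by
  have : NeZero p := ⟨(Fact.out : p.Prime).ne_zero⟩
  have : NeZero ((p : ℕ) : Kb) := ⟨Nat.cast_ne_zero.mpr (Fact.out : p.Prime).ne_zero⟩
  obtain ⟨ζ, hζ⟩ := HasEnoughRootsOfUnity.exists_primitiveRoot Kb p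
  have hσζ : (σ ζ) ^ p = 1 := by rw [← map_pow, hζ.pow_eq_one, map_one]
  obtain ⟨a, -, ha⟩ := hζ.eq_pow_of_pow_eq_one hσζ
  refine ⟨a, fun μ hμ => ?_⟩
  obtain ⟨j, -, rfl⟩ := hζ.eq_pow_of_pow_eq_one hμ
  rw [map_pow, ← ha, ← pow_mul, ← pow_mul, mul_comm]

variable {k : Type} [Field k]

/-- `T v = α v` and `det T = α ≠ 0` on a plane: `T - 1` has values in `k v`. -/
theorem noa_sub_mem_span {V : Type*} [AddCommGroup V] [Module k V]
    (hV : Module.finrank k V = 2) (T : Module.End k V) {v : V} (hv : v ≠ 0) {α : k}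
    (hα : α ≠ 0) (hT : T v = α • v) (hdet : LinearMap.det T = α) (w : V) :
    T w - w ∈ Submodule.span k {v} := by
  classical
  by_cases hw : w ∈ Submodule.span k {v}
  · obtain ⟨x, rfl⟩ := Submodule.mem_span_singleton.1 hw
    rw [map_smul, hT]
    exact Submodule.sub_mem _ (Submodule.smul_mem _ _ (Submodule.smul_mem _ _
      (Submodule.mem_span_singleton_self v))) hw
  · have hli : LinearIndependent k ![v, w] := by
      rw [LinearIndependent.pair_iff' hv]
      intro a ha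
      exact hw (Submodule.mem_span_singleton.2 ⟨a, ha⟩)
    let b : Module.Basis (Fin 2) k V :=
      basisOfLinearIndependentOfCardEqFinrank hli (by rw [Fintype.card_fin, hV])
    have hb0 : b 0 = v := by
      show basisOfLinearIndependentOfCardEqFinrank hli _ 0 = v
      rw [coe_basisOfLinearIndependentOfCardEqFinrank]; rfl
    have hb1 : b 1 = w := by
      show basisOfLinearIndependentOfCardEqFinrank hli _ 1 = w
      rw [coe_basisOfLinearIndependentOfCardEqFinrank]; rfl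
    have hrepr0 : b.repr (T v) = Finsupp.single 0 α := by
      rw [hT, map_smul, ← hb0, b.repr_self, Finsupp.smul_single, smul_eq_mul, mul_one]
    have hdet2 : LinearMap.det T = (LinearMap.toMatrix b b T).det :=
      (LinearMap.det_toMatrix b T).symm
    rw [Matrix.det_fin_two] at hdet2
    have e00 : LinearMap.toMatrix b b T 0 0 = α := by
      rw [LinearMap.toMatrix_apply, hb0, hrepr0, Finsupp.single_eq_same]
    have e10 : LinearMap.toMatrix b b T 1 0 = 0 := by
      rw [LinearMap.toMatrix_apply, hb0, hrepr0, Finsupp.single_apply, if_neg (by decide)]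
    have e11 : LinearMap.toMatrix b b T 1 1 = b.repr (T w) 1 := by
      rw [LinearMap.toMatrix_apply, hb1]
    rw [e00, e10, e11, mul_zero, sub_zero, hdet] at hdet2
    have hy : b.repr (T w) 1 = 1 := by
      have h1 : α * b.repr (T w) 1 = α * 1 := by rw [mul_one]; exact hdet2.symm
      exact mul_left_cancel₀ hα h1
    have hsum : T w = b.repr (T w) 0 • v + b.repr (T w) 1 • w := by
      conv_lhs => rw [← b.sum_repr (T w)]
      rw [Fin.sum_univ_two, hb0, hb1]
    rw [hy, one_smul] at hsum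
    rw [hsum, add_sub_cancel_right]
    exact Submodule.smul_mem _ _ (Submodule.mem_span_singleton_self v)

/-- **NOA**. -/
theorem noFpEigenProp_of (hOP : OrderPProp p (Pp p)) (hFix : NoFixedProp p (Pp p))
    (hSub : SubOrdProp p (Pp p)) : NoFpEigenProp p := by
  intro k _ _ ρbar hp2 hdet hflat haug v hv
  classical
  obtain ⟨hv0, hveig⟩ := hv
  have hp : p.Prime := Fact.out
  have hP := noa_liesOver p
  have hchar : (p : k) = 0 := ss_char_zero p ρbar hdet
  have hfinV : Finite ρbar.V := Module.finite_of_finite k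
  -- natural eigenvalues
  have heig : ∀ σ ∈ Ip p, ∃ a : ℕ, ρbar.ρ σ v = a • v := by
    intro σ hσ
    obtain ⟨c, hc, hcv⟩ := hveig σ hσ
    obtain ⟨a, rfl⟩ := noa_exists_natCast p hchar hc
    exact ⟨a, by rw [hcv, Nat.cast_smul_eq_nsmul]⟩
  set N : AddSubgroup ρbar.V := AddSubgroup.zmultiples v with hN
  have hstab : ∀ σ ∈ Ip p, ∀ n ∈ N, ρbar.ρ σ n ∈ N := by
    intro σ hσ n hn
    obtain ⟨j, rfl⟩ := AddSubgroup.mem_zmultiples_iff.1 hn
    obtain ⟨a, ha⟩ := heig σ hσ
    rw [map_zsmul, ha]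
    exact N.zsmul_mem (N.nsmul_mem (AddSubgroup.mem_zmultiples v) a) j
  let actN : GK → N → N := fun σ n =>
    if h : σ ∈ Ip p then ⟨ρbar.ρ σ n, hstab σ h n n.2⟩ else n
  have hactN : ∀ σ ∈ Ip p, ∀ n : N, ((actN σ n : N) : ρbar.V) = ρbar.ρ σ (n : ρbar.V) := by
    intro σ hσ n
    simp only [actN, dif_pos hσ]
  obtain ⟨O, -⟩ := hSub hp hP ρbar.V (actOf ρbar) hflat N actN hactN
  have hIA : IsIAction (Pp p) actN := by
    refine ⟨fun σ hσ w w' => ?_, fun w => ?_, fun σ hσ τ hτ w => ?_⟩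
    · apply Subtype.ext
      rw [AddSubgroup.coe_add, hactN σ hσ, hactN σ hσ, hactN σ hσ, AddSubgroup.coe_add, map_add]
    · apply Subtype.ext
      rw [hactN 1 (one_mem _), map_one, Module.End.one_apply]
    · apply Subtype.ext
      rw [hactN _ (mul_mem hσ hτ), hactN σ hσ, hactN τ hτ, map_mul, Module.End.mul_apply]
  have hpv : p • v = 0 := by rw [← Nat.cast_smul_eq_nsmul k, hchar, zero_smul]
  have hcard : Nat.card N = p := by
    rw [hN, Nat.card_zmultiples, addOrderOf_eq_prime hpv hv0]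
  rcases hOP hp hp2 hP N actN O hIA hcard with h1 | h2
  · -- trivial action: FIX
    apply hv0
    refine hFix hp hp2 hP ρbar.V (actOf ρbar) hflat haug v (fun σ hσ => ?_)
    have h3 := congrArg Subtype.val (h1 σ hσ ⟨v, AddSubgroup.mem_zmultiples v⟩)
    rw [hactN σ hσ] at h3
    exact h3
  · -- cyclotomic action
    have hsub : ∀ σ ∈ Ip p, ∀ w : ρbar.V, ρbar.ρ σ w - w ∈ Submodule.span k {v} := by
      intro σ hσ w
      obtain ⟨a, ha⟩ := noa_exists_pow p σ
      have h4 := congrArg Subtype.val (h2 σ hσ a ha ⟨v, AddSubgroup.mem_zmultiples v⟩)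
      rw [hactN σ hσ] at h4
      have h5 : ρbar.ρ σ v = (a : k) • v := by
        rw [Nat.cast_smul_eq_nsmul]
        exact h4
      have hd := hdet.2 1 σ a (by simpa using ha)
      have hd' : LinearMap.det (ρbar.ρ σ) = (a : k) := by
        have h0 : ((p ^ 1 : ℕ) : k) = 0 := by rw [pow_one]; exact hchar
        rw [h0, Ideal.span_singleton_eq_bot.2 rfl, Ideal.mem_bot, sub_eq_zero] at hd
        exact hd
      have hα : (a : k) ≠ 0 := by
        rw [← hd']
        have hu : IsUnit (ρbar.ρ σ) :=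
          ⟨⟨ρbar.ρ σ, ρbar.ρ σ⁻¹, by rw [← map_mul, mul_inv_cancel, map_one],
            by rw [← map_mul, inv_mul_cancel, map_one]⟩, rfl⟩
        exact (LinearMap.isUnit_det _ hu).ne_zero
      exact noa_sub_mem_span ρbar.finrank_eq (ρbar.ρ σ) hv0 hα h5 hd' w
    have hle : augI (Pp p) (actOf ρbar) ≤ (Submodule.span k {v}).toAddSubgroup := by
      unfold augI augOn
      rw [AddSubgroup.closure_le]
      rintro _ ⟨σ, hσ, w, -, rfl⟩
      exact hsub σ hσ w
    have htop : Submodule.span k {v} = ⊤ := by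
      rw [eq_top_iff]
      intro w _
      exact hle (haug w)
    have h6 : Module.finrank k (Submodule.span k {v}) = 1 := finrank_span_singleton hv0
    rw [htop, finrank_top, ρbar.finrank_eq] at h6
    exact absurd h6 (by norm_num)

end Fermat.Agent.S56.SS
end MergeWrap_S56_W4_C_S_NoA

section MergeWrap_S56_W4_C_S_OrdDefs -- from S56/W4/C/S/OrdDefs.lean

set_option autoImplicit false

namespace Fermat.Agent.S56.SS

open Fermat.Agent.F4 ExtCitation Fermat.Agent.FFL Fermat.Agent.FlatMod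

local notation "Kb" => AlgebraicClosure ℚ
local notation "GK" => (AlgebraicClosure ℚ ≃ₐ[ℚ] AlgebraicClosure ℚ)

/-- **ORD-M**: the simple module of order `p²` generated by `b 0`. -/
def OrdModuleProp (p : ℕ) [Fact p.Prime] : Prop :=
  ∀ (k : Type) [Field k] [Finite k] (ρbar : ResidualGaloisRep k), (p : k) = 0 →
  ∀ s : SSTame p ρbar,
    ∃ (W : AddSubgroup ρbar.V) (t n : ℕ),
      s.b 0 ∈ W ∧
      (∀ σ ∈ Ip p, ∀ w ∈ W, ρbar.ρ σ w ∈ W) ∧
      Nat.card W = p ^ 2 ∧
      (∀ N : AddSubgroup ρbar.V, N ≤ W → (∀ σ ∈ Ip p, ∀ x ∈ N, ρbar.ρ σ x ∈ N) →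
        N = ⊥ ∨ N = W) ∧
      (∀ σ ∈ Ip p, ∃ j : ℕ, ∀ w ∈ W, ρbar.ρ σ w = (ρbar.ρ s.τ ^ j) w) ∧
      (t : k) = s.ψ s.τ + (s.ψ s.τ) ^ p ∧ (n : k) = (s.ψ s.τ) ^ (p + 1) ∧
      ρbar.ρ s.τ (ρbar.ρ s.τ (s.b 0)) + n • s.b 0 = t • ρbar.ρ s.τ (s.b 0)

/-- **ORD-C**: the tame character of `ϖ = Z w₀`. -/
def OrdCharProp (p : ℕ) (P : ValuationSubring Kb) : Prop :=
  p.Prime → P.LiesOverPrime p →
  ∀ (W : Type) [AddCommGroup W] [Finite W] (act : GK → W → W) (O : IOrd P W act),
    IsIAction P act →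
    ∀ N : ℕ, 0 < N → Nat.card W = N + 1 →
    (∀ f ∈ O.alg, ∀ w : W, f w - f 0 ∈ P.nonunits) →
    ∀ Z ∈ O.alg, Z 0 = 0 → (∀ a : W, a ≠ 0 → ValGE p P (Z a) 1 N ∧ ValLE p P (Z a) 1 N) →
    ∀ w₀ : W, w₀ ≠ 0 → ∀ τ ∈ P.inertiaSubgroupIn ℚ, ∀ t n : ℕ,
      act τ (act τ w₀) + n • w₀ = t • act τ w₀ →
      ((τ (Z w₀)) ^ 2 - (t : Kb) * τ (Z w₀) * Z w₀ + (n : Kb) * (Z w₀) ^ 2) / (Z w₀) ^ 2
        ∈ P.nonunits

end Fermat.Agent.S56.SS
end MergeWrap_S56_W4_C_S_OrdDefs

section MergeWrap_S56_W4_C_S_Ord -- from S56/W4/C/S/Ord.lean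

set_option autoImplicit false
set_option linter.unusedSectionVars false

namespace Fermat.Agent.S56.SS

open Fermat.Agent.F4 ExtCitation Fermat.Agent.FFL Fermat.Agent.FlatMod

local notation "Kb" => AlgebraicClosure ℚ
local notation "GK" => (AlgebraicClosure ℚ ≃ₐ[ℚ] AlgebraicClosure ℚ)

variable (p : ℕ) [Fact p.Prime]

/-- the powers of an endomorphism on an eigenvector. -/
theorem ord_pow_apply_eigen {k : Type*} [Field k] {V : Type*} [AddCommGroup V] [Module k V]
    (T : Module.End k V) {v : V} {α : k} (h : T v = α • v) (j : ℕ) :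
    (T ^ j) v = α ^ j • v := by
  induction j with
  | zero => rw [pow_zero, pow_zero, Module.End.one_apply, one_smul]
  | succ j ih => rw [pow_succ', Module.End.mul_apply, ih, map_smul, h, smul_smul, pow_succ]

/-- **ORD**, from its inputs. -/
theorem ordProp_of (hT3 : T3Prop p (Pp p)) (hSub : SubOrdProp p (Pp p))
    (hM : OrdModuleProp p) (hC : OrdCharProp p (Pp p)) : OrdProp p := by
  intro k _ _ ρbar hp2 hchar hflat haug s
  classical
  have hp : p.Prime := Fact.out
  have hP := noa_liesOver p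
  have hfinV : Finite ρbar.V := Module.finite_of_finite k
  obtain ⟨W, t, n, hb0, hstab, hcard, hsimple, hcyc, ht, hn, hrel⟩ := hM k ρbar hchar s
  let actW : GK → W → W := fun σ w =>
    if h : σ ∈ Ip p then ⟨ρbar.ρ σ w, hstab σ h w w.2⟩ else w
  have hactW : ∀ σ ∈ Ip p, ∀ w : W, ((actW σ w : W) : ρbar.V) = ρbar.ρ σ (w : ρbar.V) := by
    intro σ hσ w
    simp only [actW, dif_pos hσ]
  obtain ⟨O, hconn⟩ := hSub hp hP ρbar.V (actOf ρbar) hflat W actW hactW
  have hconn' : ∀ f ∈ O.alg, ∀ w : W, f w - f 0 ∈ (Pp p).nonunits :=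
    fun f hf w => hconn w (haug w) f hf
  have hIA : IsIAction (Pp p) actW := by
    refine ⟨fun σ hσ w w' => ?_, fun w => ?_, fun σ hσ τ hτ w => ?_⟩
    · apply Subtype.ext
      rw [AddSubgroup.coe_add, hactW σ hσ, hactW σ hσ, hactW σ hσ, AddSubgroup.coe_add, map_add]
    · apply Subtype.ext
      rw [hactW 1 (one_mem _), map_one, Module.End.one_apply]
    · apply Subtype.ext
      rw [hactW _ (mul_mem hσ hτ), hactW σ hσ, hactW τ hτ, map_mul, Module.End.mul_apply]
  -- iterates of `τ`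
  have hiter : ∀ (j : ℕ) (w : W),
      (((actW s.τ)^[j] w : W) : ρbar.V) = (ρbar.ρ s.τ ^ j) (w : ρbar.V) := by
    intro j w
    induction j with
    | zero => rw [Function.iterate_zero, id_eq, pow_zero, Module.End.one_apply]
    | succ j ih =>
      rw [Function.iterate_succ_apply', hactW s.τ s.τ_mem, ih, pow_succ', Module.End.mul_apply]
  have hcyc' : ∃ τ₀ ∈ (Pp p).inertiaSubgroupIn ℚ, ∀ σ ∈ (Pp p).inertiaSubgroupIn ℚ, ∃ j : ℕ,
      ∀ w : W, actW σ w = (actW τ₀)^[j] w := by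
    refine ⟨s.τ, s.τ_mem, fun σ hσ => ?_⟩
    obtain ⟨j, hj⟩ := hcyc σ hσ
    refine ⟨j, fun w => Subtype.ext ?_⟩
    rw [hactW σ hσ, hiter, hj w w.2]
  have hsimple' : ∀ N : AddSubgroup W,
      (∀ σ ∈ (Pp p).inertiaSubgroupIn ℚ, ∀ x ∈ N, actW σ x ∈ N) → N = ⊥ ∨ N = ⊤ := by
    intro N hN
    have h1 := hsimple (N.map W.subtype) (by
        rintro _ ⟨x, -, rfl⟩
        exact x.2) (by
        rintro σ hσ _ ⟨x, hx, rfl⟩
        exact ⟨actW σ x, hN σ hσ x hx, hactW σ hσ x⟩)
    rcases h1 with h1 | h1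
    · left
      rw [eq_bot_iff]
      intro x hx
      have h2 : (x : ρbar.V) ∈ N.map W.subtype := ⟨x, hx, rfl⟩
      rw [h1, AddSubgroup.mem_bot] at h2
      rw [AddSubgroup.mem_bot]
      exact Subtype.ext h2
    · right
      rw [eq_top_iff]
      intro x _
      have h2 : (x : ρbar.V) ∈ N.map W.subtype := by rw [h1]; exact x.2
      obtain ⟨y, hy, hyx⟩ := h2
      have : y = x := Subtype.ext hyx
      rwa [← this]
  have hfinW : Finite W := inferInstance
  obtain ⟨htrans, Z, hZ, hZ0, hZval⟩ := hT3 hp hp2 hP W actW O hIA hcard hcyc' hsimple'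
  set α : k := s.ψ s.τ with hα
  have hτb : ρbar.ρ s.τ (s.b 0) = α • s.b 0 := s.diag0 s.τ s.τ_mem
  let w₀ : W := ⟨s.b 0, hb0⟩
  have hw₀ : w₀ ≠ 0 := fun h => s.b.ne_zero 0 (congrArg Subtype.val h)
  have hp2pos : 0 < p ^ 2 - 1 := by
    have : 2 ≤ p := hp.two_le
    have : 4 ≤ p ^ 2 := by nlinarith
    omega
  have hcard' : Nat.card W = (p ^ 2 - 1) + 1 := by rw [hcard]; omega
  refine ⟨{
    b := s.b
    ψ := s.ψ
    diag0 := s.diag0
    diag1 := s.diag1
    fp2 := s.fp2
    τ := s.τ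
    τ_mem := s.τ_mem
    gen := s.gen
    ne_zero := s.ne_zero
    ord := ?_
    ϖ := Z w₀
    ϖ_ge := (hZval w₀ hw₀).1
    ϖ_le := (hZval w₀ hw₀).2
    ϖ_fix := ?_
    ϖ_char := ?_ }⟩
  · -- the order of `ψ τ`
    intro m hm hαm
    have hperiod : ∀ j : ℕ, (actW s.τ)^[j] w₀ = (actW s.τ)^[j % m] w₀ := by
      intro j
      apply Subtype.ext
      rw [hiter, hiter, ord_pow_apply_eigen _ hτb, ord_pow_apply_eigen _ hτb]
      congr 1
      conv_lhs => rw [← Nat.div_add_mod j m, pow_add, pow_mul, hαm, one_pow, one_mul]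
    have hsub : {a : W | a ≠ 0} ⊆ Set.range (fun j : Fin m => (actW s.τ)^[(j : ℕ)] w₀) := by
      intro a ha
      obtain ⟨σ, hσ, hσa⟩ := htrans w₀ a hw₀ ha
      obtain ⟨-, hτ₀⟩ := hcyc'
      obtain ⟨j, hj⟩ := hcyc σ hσ
      refine ⟨⟨j % m, Nat.mod_lt j hm⟩, ?_⟩
      show (actW s.τ)^[j % m] w₀ = a
      rw [← hperiod, ← hσa]
      apply Subtype.ext
      rw [hiter, hactW σ hσ, hj _ hb0]
    have h1 : ({a : W | a ≠ 0} : Set W).ncard ≤ m := by
      calc ({a : W | a ≠ 0} : Set W).ncard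
          ≤ (Set.range (fun j : Fin m => (actW s.τ)^[(j : ℕ)] w₀)).ncard :=
            Set.ncard_le_ncard hsub (Set.finite_range _)
        _ ≤ Nat.card (Fin m) := by
            rw [← Set.image_univ]
            calc (_ '' Set.univ).ncard ≤ (Set.univ : Set (Fin m)).ncard :=
                  Set.ncard_image_le Set.finite_univ
              _ = Nat.card (Fin m) := Set.ncard_univ _
        _ = m := Nat.card_fin m
    have h2 : ({a : W | a ≠ 0} : Set W).ncard = p ^ 2 - 1 := by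
      have h3 : ({a : W | a ≠ 0} : Set W) = ({0} : Set W)ᶜ := by
        ext a; simp
      rw [h3, Set.ncard_compl, Set.ncard_singleton, hcard]
    omega
  · -- `ϖ` is fixed by the kernel of `ψ`
    intro σ hσ hψ
    rw [← O.equiv Z hZ σ hσ w₀]
    congr 1
    apply Subtype.ext
    rw [hactW σ hσ]
    show ρbar.ρ σ (s.b 0) = s.b 0
    rw [s.diag0 σ hσ, hψ, one_smul]
  · -- the tame character
    refine ⟨(t : ℤ), (n : ℤ), by rw [Int.cast_natCast, ht], by rw [Int.cast_natCast, hn], ?_⟩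
    have hrel' : actW s.τ (actW s.τ w₀) + n • w₀ = t • actW s.τ w₀ := by
      apply Subtype.ext
      rw [AddSubgroup.coe_add, AddSubgroup.coe_nsmul, AddSubgroup.coe_nsmul,
        hactW s.τ s.τ_mem, hactW s.τ s.τ_mem]
      exact hrel
    have h := hC hp hP W actW O hIA (p ^ 2 - 1) hp2pos hcard' hconn' Z hZ hZ0 hZval w₀ hw₀ s.τ
      s.τ_mem t n hrel'
    rw [Int.cast_natCast, Int.cast_natCast]
    exact h

end Fermat.Agent.S56.SS
end MergeWrap_S56_W4_C_S_Ord

section MergeWrap_S56_W4_C_S_Ord_Char -- from S56/W4/C/S/Ord/Char.lean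

set_option autoImplicit false
set_option linter.unusedSectionVars false

namespace Fermat.Agent.S56.SS

open Fermat.Agent.F4 ExtCitation Fermat.Agent.FFL Fermat.Agent.FlatMod

local notation "Kb" => AlgebraicClosure ℚ
local notation "GK" => (AlgebraicClosure ℚ ≃ₐ[ℚ] AlgebraicClosure ℚ)

variable {P : ValuationSubring Kb}

theorem ordc_mem_of_pow_mem {y : Kb} {N : ℕ} (hN : 0 < N) (h : y ^ N ∈ P) : y ∈ P := by
  rw [← P.valuation_le_one_iff] at h ⊢
  rw [map_pow] at h
  exact (pow_le_one_iff hN.ne').1 h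

theorem ordc_inertia_mem {σ : GK} (hσ : σ ∈ P.inertiaSubgroupIn ℚ) {x : Kb} (hx : x ∈ P) :
    σ x ∈ P := by
  have h1 := red_mem_of_mem_nonunits P (Fermat.Agent.Cyclo.inertia_sub_mem_nonunits P hσ hx)
  have h2 : σ x = (σ x - x) + x := by ring
  rw [h2]
  exact P.add_mem _ _ h1 hx

theorem ordc_sum_mem_nonunits {ι : Type*} (s : Finset ι) (F : ι → Kb)
    (hF : ∀ i ∈ s, F i ∈ P.nonunits) : ∑ i ∈ s, F i ∈ P.nonunits := by
  classical
  induction s using Finset.induction_on with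
  | empty => rw [Finset.sum_empty]; exact red_zero_mem_nonunits P
  | insert a s ha ih =>
    rw [Finset.sum_insert ha]
    exact red_add_mem_nonunits P (hF a (Finset.mem_insert_self a s))
      (ih (fun i hi => hF i (Finset.mem_insert_of_mem hi)))

theorem ordc_identity {F : Type*} [Field F] (x y z tt nn : F) (hx : x ≠ 0) (hy : y ≠ 0) :
    (y ^ 2 - tt * y * x + nn * x ^ 2) / x ^ 2 =
      (z - tt * y + nn * x) / x - (z / y - y / x) * (y / x) := by
  field_simp
  ring

section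

variable {W : Type} [AddCommGroup W] {act : GK → W → W}

theorem ordc_act_zero (hIA : IsIAction P act) {σ : GK} (hσ : σ ∈ P.inertiaSubgroupIn ℚ) :
    act σ 0 = 0 := by
  have h := hIA.1 σ hσ 0 0
  rw [add_zero] at h
  exact left_eq_add.1 h

theorem ordc_act_ne_zero (hIA : IsIAction P act) {σ : GK} (hσ : σ ∈ P.inertiaSubgroupIn ℚ)
    {a : W} (ha : a ≠ 0) : act σ a ≠ 0 := by
  intro h
  apply ha
  have h1 := hIA.2.2 σ⁻¹ (inv_mem hσ) σ hσ a
  rw [inv_mul_cancel, hIA.2.1, h, ordc_act_zero hIA (inv_mem hσ)] at h1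
  exact h1

end

/-- **ORD-C**. -/
theorem ordCharProp_of (p : ℕ) (P : ValuationSubring Kb) (hVal : ValOrbitProp p P) :
    OrdCharProp p P := by
  intro hp hP W _ _ act O hIA N hN hcard hconn Z hZ hZ0 hZval w₀ hw₀ τ hτ t n hrel
  classical
  let _ : Fintype W := Fintype.ofFinite W
  have hp0 : (p : Kb) ≠ 0 := Nat.cast_ne_zero.2 hp.ne_zero
  set ϖ : Kb := Z w₀ with hϖ
  obtain ⟨hge, hϖ0, hle⟩ := hZval w₀ hw₀
  -- `hge : ϖ ^ N / p ^ 1 ∈ P`, `hle : p ^ 1 / ϖ ^ N ∈ P`
  unfold ValGE at hge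
  rw [pow_one] at hge hle
  -- LB
  have hLB : ∀ Y ∈ O.alg, ∀ a : W, (Y a - Y 0) / ϖ ∈ P := by
    intro Y hY a
    by_cases ha : a = 0
    · rw [ha, sub_self, zero_div]; exact P.zero_mem
    have hx : Y a - Y 0 ∈ P.nonunits := hconn Y hY a
    let T : Finset Kb := (Finset.univ.erase (0 : W)).image (fun a' => Y a' - Y 0)
    have hT : T.card ≤ N := by
      refine Finset.card_image_le.trans ?_
      rw [Finset.card_erase_of_mem (Finset.mem_univ _), Finset.card_univ,
        ← Nat.card_eq_fintype_card, hcard]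
      omega
    have hconj : ∀ σ ∈ P.inertiaSubgroupIn ℚ, σ (Y a - Y 0) ∈ T := by
      intro σ hσ
      rw [map_sub, ← O.equiv Y hY σ hσ, ← O.equiv Y hY σ hσ, ordc_act_zero hIA hσ]
      exact Finset.mem_image.2 ⟨act σ a,
        Finset.mem_erase.2 ⟨ordc_act_ne_zero hIA hσ ha, Finset.mem_univ _⟩, rfl⟩
    have h1 := hVal hp hP (Y a - Y 0) T N hx hconj hT hN
    unfold ValGE at h1
    rw [pow_one] at h1
    apply ordc_mem_of_pow_mem hN
    have h2 : ((Y a - Y 0) / ϖ) ^ N = ((Y a - Y 0) ^ N / (p : Kb)) * ((p : Kb) / ϖ ^ N) := by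
      rw [div_pow, div_mul_div_cancel₀ hp0]
    rw [h2]
    exact P.mul_mem _ _ h1 hle
  -- ADD
  have hADD : ∀ a a' : W, (Z (a + a') - Z a - Z a') / ϖ ∈ P.nonunits := by
    intro a a'
    obtain ⟨m, g, h, hg, hh, hgh⟩ := O.comul Z hZ
    have h1 : Z (a + a') - Z a - Z a' = ∑ i, (g i a - g i 0) * (h i a' - h i 0) := by
      have e1 := hgh a a'
      have e2 := hgh a 0
      have e3 := hgh 0 a'
      have e4 := hgh 0 0
      rw [add_zero] at e2 e4
      rw [zero_add] at e3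
      rw [hZ0] at e4
      have e5 : ∑ i, (g i a - g i 0) * (h i a' - h i 0) =
          ∑ i, g i a * h i a' - ∑ i, g i a * h i 0 - ∑ i, g i 0 * h i a' +
            ∑ i, g i 0 * h i 0 := by
        rw [← Finset.sum_sub_distrib, ← Finset.sum_sub_distrib, ← Finset.sum_add_distrib]
        exact Finset.sum_congr rfl (fun i _ => by ring)
      rw [e5, ← e1, ← e2, ← e3, ← e4, add_zero]
    rw [h1, Finset.sum_div]
    refine ordc_sum_mem_nonunits _ _ (fun i _ => ?_)
    rw [mul_div_assoc]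
    exact red_mul_mem_nonunits_right P (hconn (g i) (hg i) a) (hLB (h i) (hh i) a')
  -- multiples
  have hMUL : ∀ (j : ℕ) (a : W), (Z (j • a) - (j : Kb) * Z a) / ϖ ∈ P.nonunits := by
    intro j a
    induction j with
    | zero =>
      rw [zero_smul, hZ0, Nat.cast_zero, zero_mul, sub_zero, zero_div]
      exact red_zero_mem_nonunits P
    | succ j ih =>
      have e : (Z ((j + 1) • a) - ((j + 1 : ℕ) : Kb) * Z a) / ϖ =
          (Z (j • a + a) - Z (j • a) - Z a) / ϖ + (Z (j • a) - (j : Kb) * Z a) / ϖ := by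
        rw [succ_nsmul, Nat.cast_succ]
        ring
      rw [e]
      exact red_add_mem_nonunits P (hADD _ _) ih
  -- the relation
  set B : W := act τ w₀ with hB
  set A : W := act τ B with hA
  have hZB : Z B = τ ϖ := O.equiv Z hZ τ hτ w₀
  have hZA : Z A = τ (τ ϖ) := by rw [hA, O.equiv Z hZ τ hτ B, hZB]
  have hE1 : (τ (τ ϖ) - (t : Kb) * τ ϖ + (n : Kb) * ϖ) / ϖ ∈ P.nonunits := by
    have h1 := hADD A (n • w₀)
    have h2 := hMUL n w₀
    have h3 := hMUL t B
    rw [hrel] at h1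
    rw [hZA] at h1
    rw [hZB] at h3
    -- h1 : (Z (t • B) - τ (τ ϖ) - Z (n • w₀)) / ϖ ∈ 𝔪
    have e : (τ (τ ϖ) - (t : Kb) * τ ϖ + (n : Kb) * ϖ) / ϖ =
        (Z (t • B) - (t : Kb) * τ ϖ) / ϖ - (Z (t • B) - τ (τ ϖ) - Z (n • w₀)) / ϖ
          - (Z (n • w₀) - (n : Kb) * Z w₀) / ϖ := by
      rw [← hϖ]
      ring
    rw [e]
    exact red_sub_mem_nonunits P (red_sub_mem_nonunits P h3 h1) h2
  -- `θ = τ ϖ / ϖ`
  have hτϖ : (τ ϖ) ^ N / (p : Kb) ∈ P := by
    have h1 := ordc_inertia_mem hτ hge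
    rwa [map_div₀, map_pow, map_natCast] at h1
  have hθ : τ ϖ / ϖ ∈ P := by
    apply ordc_mem_of_pow_mem hN
    have h2 : (τ ϖ / ϖ) ^ N = ((τ ϖ) ^ N / (p : Kb)) * ((p : Kb) / ϖ ^ N) := by
      rw [div_pow, div_mul_div_cancel₀ hp0]
    rw [h2]
    exact P.mul_mem _ _ hτϖ hle
  have hτθ : τ (τ ϖ / ϖ) - τ ϖ / ϖ ∈ P.nonunits :=
    Fermat.Agent.Cyclo.inertia_sub_mem_nonunits P hτ hθ
  have hτϖ0 : τ ϖ ≠ 0 := fun h => hϖ0 ((map_eq_zero τ).1 h)
  have efin : ((τ ϖ) ^ 2 - (t : Kb) * τ ϖ * ϖ + (n : Kb) * ϖ ^ 2) / ϖ ^ 2 =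
      (τ (τ ϖ) - (t : Kb) * τ ϖ + (n : Kb) * ϖ) / ϖ
        - (τ (τ ϖ / ϖ) - τ ϖ / ϖ) * (τ ϖ / ϖ) := by
    rw [map_div₀]
    exact ordc_identity ϖ (τ ϖ) (τ (τ ϖ)) t n hϖ0 hτϖ0
  rw [efin]
  exact red_sub_mem_nonunits P hE1 (red_mul_mem_nonunits_right P hτθ hθ)

end Fermat.Agent.S56.SS
end MergeWrap_S56_W4_C_S_Ord_Char

section MergeWrap_S56_W4_C_S_Ord_Module -- from S56/W4/C/S/Ord/Module.lean

set_option autoImplicit false
set_option linter.style.haveILetI false

namespace Fermat.Agent.S56.SS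

open Fermat.Agent.F4 ExtCitation

local notation "Kb" => AlgebraicClosure ℚ
local notation "GK" => (AlgebraicClosure ℚ ≃ₐ[ℚ] AlgebraicClosure ℚ)

section Core

variable {k : Type} [Field k]

/-- In characteristic `p`, a fixed point of the Frobenius is in the image of `𝔽_p`. -/
theorem ordm_exists_cast (p : ℕ) [Fact p.Prime] [CharP k p] {c : k} (hc : c ^ p = c) :
    ∃ a : ZMod p, ZMod.castHom (dvd_refl p) k a = c := by
  have h1 : c ∈ (⊥ : Subfield k) := (Subfield.mem_bot_iff_pow_eq_self k p).2 hc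
  rw [← ZMod.fieldRange_castHom_eq_bot p] at h1
  exact h1

/-- The image of `𝔽_p` is fixed by the Frobenius. -/
theorem ordm_cast_pow (p : ℕ) [Fact p.Prime] [CharP k p] (a : ZMod p) :
    (ZMod.castHom (dvd_refl p) k a) ^ p = ZMod.castHom (dvd_refl p) k a := by
  rw [← map_pow, ZMod.pow_card]

/-- The image of `𝔽_p` consists of natural numbers. -/
theorem ordm_cast_eq_natCast (p : ℕ) [Fact p.Prime] [CharP k p] (a : ZMod p) :
    ZMod.castHom (dvd_refl p) k a = (a.val : k) := by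
  conv_lhs => rw [← ZMod.natCast_zmod_val a]
  rw [map_natCast]

/-- Powers of an endomorphism on an eigenvector. -/
theorem ordm_pow_eigen {V : Type} [AddCommGroup V] [Module k V] (g : Module.End k V) {v : V}
    {α : k} (h : g v = α • v) (n : ℕ) : (g ^ n) v = α ^ n • v := by
  induction n with
  | zero => simp
  | succ n ih =>
    rw [pow_succ, Module.End.mul_apply, h, map_smul, ih, smul_smul, pow_succ, mul_comm]

/-- The additive group `S = 𝔽_p + 𝔽_p α` for `α ∈ 𝔽_{p²} ∖ 𝔽_p`: it has `p²` elements, it is stable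
under `α`, and it is simple as such. -/
theorem ordm_ring [Finite k] (p : ℕ) [Fact p.Prime] [CharP k p] (α : k)
    (hα2 : α ^ (p ^ 2) = α) (hαp : α ^ p ≠ α) :
    ∃ (S : AddSubgroup k) (t n : ℕ), (1 : k) ∈ S ∧ (∀ c ∈ S, α * c ∈ S) ∧ Nat.card S = p ^ 2 ∧
      (t : k) = α + α ^ p ∧ (n : k) = α ^ (p + 1) ∧
      ∀ A : AddSubgroup k, A ≤ S → (∀ a ∈ A, α * a ∈ A) → A = ⊥ ∨ A = S := by
  have hp : p.Prime := Fact.out
  set ι := ZMod.castHom (dvd_refl p) k with hι
  have hαpp : (α ^ p) ^ p = α := by rw [← pow_mul, ← pow_two, hα2]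
  have ht : (α + α ^ p) ^ p = α + α ^ p := by
    rw [add_pow_char, hαpp, add_comm]
  have hn : (α ^ (p + 1)) ^ p = α ^ (p + 1) := by
    rw [pow_succ, mul_pow, hαpp, mul_comm]
  obtain ⟨t', ht'⟩ := ordm_exists_cast p ht
  obtain ⟨n', hn'⟩ := ordm_exists_cast p hn
  have hrel : α * α = ι t' * α - ι n' := by
    rw [ht', hn']; ring
  let S : AddSubgroup k :=
    { carrier := {c | ∃ x y : ZMod p, c = ι x + ι y * α}
      zero_mem' := ⟨0, 0, by simp⟩
      add_mem' := by
        rintro _ _ ⟨x, y, rfl⟩ ⟨x', y', rfl⟩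
        exact ⟨x + x', y + y', by rw [map_add, map_add]; ring⟩
      neg_mem' := by
        rintro _ ⟨x, y, rfl⟩
        exact ⟨-x, -y, by rw [map_neg, map_neg]; ring⟩ }
  have hSα : ∀ c ∈ S, α * c ∈ S := by
    rintro _ ⟨x, y, rfl⟩
    refine ⟨-(y * n'), x + y * t', ?_⟩
    rw [map_neg, map_mul, map_add, map_mul]
    linear_combination (ι y) * hrel
  have hcastmul : ∀ (B : AddSubgroup k) (x : ZMod p) (c : k), c ∈ B → ι x * c ∈ B := by
    intro B x c hc
    rw [hι, ordm_cast_eq_natCast, ← nsmul_eq_mul]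
    exact B.nsmul_mem hc _
  have hSmul : ∀ (B : AddSubgroup k), (∀ a ∈ B, α * a ∈ B) → ∀ c ∈ B, ∀ r ∈ S, r * c ∈ B := by
    rintro B hB c hc _ ⟨x, y, rfl⟩
    have : (ι x + ι y * α) * c = ι x * c + ι y * (α * c) := by ring
    rw [this]
    exact B.add_mem (hcastmul B x c hc) (hcastmul B y _ (hB c hc))
  have hinj : ∀ x y x' y' : ZMod p, ι x + ι y * α = ι x' + ι y' * α → x = x' ∧ y = y' := by
    intro x y x' y' h
    have hy : y = y' := by
      by_contra hne
      have hne' : ι y - ι y' ≠ 0 := by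
        rw [← map_sub, Ne, map_eq_zero_iff ι ι.injective, sub_eq_zero]
        exact hne
      have hα : α = ι ((x' - x) / (y - y')) := by
        rw [map_div₀, map_sub, map_sub, eq_div_iff hne']
        linear_combination h
      apply hαp
      rw [hα]
      exact ordm_cast_pow p _
    subst hy
    exact ⟨ι.injective (add_right_cancel h), rfl⟩
  have hcard : Nat.card S = p ^ 2 := by
    have hbij : Function.Bijective
        (fun z : ZMod p × ZMod p => (⟨ι z.1 + ι z.2 * α, z.1, z.2, rfl⟩ : S)) := by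
      constructor
      · rintro ⟨x, y⟩ ⟨x', y'⟩ h
        have := hinj x y x' y' (congrArg Subtype.val h)
        rw [this.1, this.2]
      · rintro ⟨_, x, y, rfl⟩
        exact ⟨(x, y), rfl⟩
    rw [← Nat.card_congr (Equiv.ofBijective _ hbij), Nat.card_prod, Nat.card_zmod, pow_two]
  refine ⟨S, t'.val, n'.val, ⟨1, 0, by simp⟩, hSα, hcard, ?_, ?_, ?_⟩
  · rw [← ordm_cast_eq_natCast, ← hι, ht']
  · rw [← ordm_cast_eq_natCast, ← hι, hn']
  · intro A hAS hA
    rcases A.bot_or_exists_ne_zero with hbot | ⟨c, hcA, hc0⟩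
    · exact Or.inl hbot
    right
    have hcS : c ∈ S := hAS hcA
    refine le_antisymm hAS ?_
    let m : S → S := fun r => ⟨r.1 * c, hSmul S hSα c hcS r.1 r.2⟩
    have hm : Function.Injective m := by
      intro r r' h
      have h' : r.1 * c = r'.1 * c := congrArg Subtype.val h
      exact Subtype.ext (mul_right_cancel₀ hc0 h')
    have hms : Function.Surjective m := Finite.surjective_of_injective hm
    intro s hs
    obtain ⟨r, hr⟩ := hms ⟨s, hs⟩
    have hrs : r.1 * c = s := congrArg Subtype.val hr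
    rw [← hrs]
    exact hSmul A hA c hcA r.1 r.2

end Core

/-- **ORD-M**: the simple module of order `p²` generated by `b 0`. -/
theorem ordModuleProp (p : ℕ) [Fact p.Prime] : OrdModuleProp p := by
  intro k _ _ ρbar hpk s
  have hp : p.Prime := Fact.out
  haveI : CharP k p := (CharP.charP_iff_prime_eq_zero hp).2 hpk
  have hb0 : s.b 0 ≠ 0 := s.b.ne_zero 0
  obtain ⟨S, t, n, h1S, hSα, hScard, ht, hn, hSsimple⟩ :=
    ordm_ring p (s.ψ s.τ) (s.fp2 s.τ s.τ_mem) s.not_fp
  let f : k →+ ρbar.V := (LinearMap.toSpanSingleton k ρbar.V (s.b 0)).toAddMonoidHom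
  have hf : ∀ c, f c = c • s.b 0 := fun c => rfl
  have hfinj : Function.Injective f := by
    intro c c' h
    rw [hf, hf] at h
    exact smul_left_injective k hb0 h
  have hact : ∀ σ ∈ Ip p, ∀ c : k, ρbar.ρ σ (c • s.b 0) = (s.ψ σ * c) • s.b 0 := by
    intro σ hσ c
    rw [map_smul, s.diag0 σ hσ, smul_smul, mul_comm]
  have hpowS : ∀ (j : ℕ), ∀ c ∈ S, (s.ψ s.τ) ^ j * c ∈ S := by
    intro j
    induction j with
    | zero => intro c hc; simpa using hc
    | succ j ih => intro c hc; rw [pow_succ, mul_assoc]; exact ih _ (hSα c hc)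
  refine ⟨S.map f, t, n, ⟨1, h1S, by rw [hf, one_smul]⟩, ?_, ?_, ?_, ?_, ht, hn, ?_⟩
  · rintro σ hσ _ ⟨c, hc, rfl⟩
    obtain ⟨j, hj⟩ := s.gen σ hσ
    rw [hf, hact σ hσ, hj]
    exact ⟨_, hpowS j c hc, rfl⟩
  · rw [← hScard]
    exact (Nat.card_congr (S.equivMapOfInjective f hfinj).toEquiv).symm
  · intro N hNW hN
    let A : AddSubgroup k := N.comap f ⊓ S
    have hA : ∀ a ∈ A, s.ψ s.τ * a ∈ A := by
      rintro a ⟨haN, haS⟩
      refine ⟨?_, hSα a haS⟩
      have := hN s.τ s.τ_mem (f a) haN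
      rw [hf, hact s.τ s.τ_mem] at this
      exact this
    rcases hSsimple A inf_le_right hA with h | h
    · left
      rw [eq_bot_iff]
      intro x hx
      obtain ⟨c, hc, rfl⟩ := hNW hx
      have hcA : c ∈ A := ⟨hx, hc⟩
      rw [h, AddSubgroup.mem_bot] at hcA
      rw [AddSubgroup.mem_bot, hcA, map_zero]
    · right
      refine le_antisymm hNW ?_
      rintro _ ⟨c, hc, rfl⟩
      have hcA : c ∈ A := by rw [h]; exact hc
      exact hcA.1
  · intro σ hσ
    obtain ⟨j, hj⟩ := s.gen σ hσ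
    refine ⟨j, ?_⟩
    rintro _ ⟨c, hc, rfl⟩
    rw [hf, hact σ hσ, hj, map_smul, ordm_pow_eigen (ρbar.ρ s.τ) (s.diag0 s.τ s.τ_mem) j,
      smul_smul, mul_comm]
  · rw [s.diag0 s.τ s.τ_mem, map_smul, s.diag0 s.τ s.τ_mem, ← Nat.cast_smul_eq_nsmul k n,
      ← Nat.cast_smul_eq_nsmul k t, hn, ht, smul_smul, smul_smul, ← add_smul]
    congr 1
    ring

end Fermat.Agent.S56.SS
end MergeWrap_S56_W4_C_S_Ord_Module

section MergeWrap_S56_W4_C_S_Dich -- from S56/W4/C/S/Dich.lean

set_option autoImplicit false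
set_option linter.style.haveILetI false

namespace Fermat.Agent.S56.SS

open Fermat.Agent.F4 ExtCitation Fermat.Agent.FFL Fermat.Agent.FlatMod

local notation "Kb" => AlgebraicClosure ℚ
local notation "GK" => (AlgebraicClosure ℚ ≃ₐ[ℚ] AlgebraicClosure ℚ)

/-- inertia is contained in the decomposition group. -/
theorem dich_inertia_le_decomp {P : ValuationSubring Kb} {σ : GK}
    (hσ : σ ∈ P.inertiaSubgroupIn ℚ) : σ ∈ P.decompositionSubgroup ℚ := by
  obtain ⟨x, -, rfl⟩ := Subgroup.mem_map.mp hσ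
  exact x.2

/-- inertia is normalised by the decomposition group. -/
theorem dich_conj_mem_inertia {P : ValuationSubring Kb} {δ σ : GK}
    (hδ : δ ∈ P.decompositionSubgroup ℚ) (hσ : σ ∈ P.inertiaSubgroupIn ℚ) :
    δ * σ * δ⁻¹ ∈ P.inertiaSubgroupIn ℚ := by
  obtain ⟨x, hx, rfl⟩ := Subgroup.mem_map.mp hσ
  refine Subgroup.mem_map.mpr ⟨(⟨δ, hδ⟩ : P.decompositionSubgroup ℚ) * x *
    (⟨δ, hδ⟩ : P.decompositionSubgroup ℚ)⁻¹, ?_, rfl⟩
  have hn : (P.inertiaSubgroup ℚ).Normal := by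
    unfold ValuationSubring.inertiaSubgroup
    exact MonoidHom.normal_ker _
  exact hn.conj_mem x hx _

/-- the cardinality of a finite vector space of positive dimension over a finite field of
characteristic `p` is divisible by `p`. -/
theorem dich_dvd_card {p : ℕ} [Fact p.Prime] {k : Type} [Field k] [Finite k]
    (hpk : (p : k) = 0) {V : Type} [AddCommGroup V] [Module k V] [Module.Finite k V]
    (hV : 0 < Module.finrank k V) : p ∣ Nat.card V := by
  classical
  haveI : Fintype k := Fintype.ofFinite k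
  haveI : CharP k p := by
    obtain ⟨q, hq⟩ := CharP.exists k
    haveI := hq
    have hdvd : q ∣ p := (CharP.cast_eq_zero_iff k q p).mp hpk
    have hqprime : q.Prime := by
      rcases CharP.char_is_prime_or_zero k q with h | h
      · exact h
      · exfalso
        subst h
        exact (Fact.out : p.Prime).ne_zero (Nat.eq_zero_of_zero_dvd hdvd)
    have : q = p := (Nat.prime_dvd_prime_iff_eq hqprime Fact.out).mp hdvd
    subst this
    exact hq
  have hk : p ∣ Nat.card k := by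
    obtain ⟨n, hp, hn⟩ := FiniteField.card k p
    rw [Nat.card_eq_fintype_card, hn]
    exact dvd_pow_self p n.ne_zero
  have hcard : Nat.card V = Nat.card k ^ Module.finrank k V := Module.natCard_eq_pow_finrank
  rw [hcard]
  exact dvd_trans hk (dvd_pow_self _ hV.ne')

variable (p : ℕ) [Fact p.Prime]

/-- **DICH**. -/
theorem dichProp_of (hW : WildSubProp) (hF : FpCharProp p) (hT : TameDichProp p) :
    DichProp p := by
  intro k _ _ ρbar hpk hsplit
  classical
  by_cases htame : ∀ σ ∈ Ip p, ∀ a : ℕ, (ρbar.ρ σ) ^ p ^ a = 1 → ρbar.ρ σ = 1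
  · exact hT k ρbar hpk hsplit htame
  left
  push Not at htame
  obtain ⟨σ₀, hσ₀, a₀, ha₀, hne₀⟩ := htame
  -- the representation with values in the units
  let χ : GK →* (Module.End k ρbar.V)ˣ := ρbar.ρ.toHomUnits
  have hχ : ∀ σ : GK, ((χ σ : (Module.End k ρbar.V)ˣ) : Module.End k ρbar.V) = ρbar.ρ σ :=
    fun σ => rfl
  have hfin : ∃ L : IntermediateField ℚ Kb, FiniteDimensional ℚ L ∧
      ∀ σ : GK, (∀ x ∈ L, σ x = x) → χ σ = 1 := by
    obtain ⟨L, hL, h1⟩ := ρbar.factorsThroughFiniteLevel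
    refine ⟨L, hL, fun σ hσ => Units.ext ?_⟩
    rw [hχ, h1 σ hσ]; rfl
  have hlies : (Pp p).LiesOverPrime p := primeLocalPlace_liesOverPrime (pPrime p)
  obtain ⟨S, hS⟩ := hW p Fact.out (Pp p) hlies (Module.End k ρbar.V)ˣ χ hfin
  -- `S` is a `p`-group
  have hSp : IsPGroup p S := by
    intro g
    obtain ⟨a, ha⟩ := ((hS g.1).1 g.2).1
    exact ⟨a, Subtype.ext (by simpa using ha)⟩
  -- `χ σ₀ ∈ S`
  have hu₀ : χ σ₀ ∈ S := by
    refine (hS _).2 ⟨⟨a₀, Units.ext ?_⟩, σ₀, hσ₀, rfl⟩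
    rw [Units.val_pow_eq_pow_val, hχ, ha₀]; rfl
  -- `S` is normalised by the image of the decomposition group
  have hconj : ∀ δ ∈ Dp p, ∀ s ∈ S, (χ δ)⁻¹ * s * χ δ ∈ S := by
    intro δ hδ s hs
    obtain ⟨⟨a, ha⟩, σ, hσ, rfl⟩ := (hS s).1 hs
    refine (hS _).2 ⟨⟨a, ?_⟩, δ⁻¹ * σ * δ, ?_, ?_⟩
    · have : ((χ δ)⁻¹ * χ σ * χ δ) ^ p ^ a = (χ δ)⁻¹ * (χ σ) ^ p ^ a * χ δ := by
        have h := conj_pow (a := (χ δ)⁻¹) (b := χ σ) (i := p ^ a)
        rwa [inv_inv] at h
      rw [this, ha, mul_one, inv_mul_cancel]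
    · have h := dich_conj_mem_inertia (Subgroup.inv_mem _ hδ) hσ
      rwa [inv_inv] at h
    · rw [map_mul, map_mul, map_inv]
  -- the fixed space
  let W : Submodule k ρbar.V :=
    { carrier := {v | ∀ s ∈ S, ((s : (Module.End k ρbar.V)ˣ) : Module.End k ρbar.V) v = v}
      add_mem' := fun {x y} hx hy s hs => by rw [map_add, hx s hs, hy s hs]
      zero_mem' := fun s _ => map_zero _
      smul_mem' := fun c x hx s hs => by rw [map_smul, hx s hs] }
  have hWmem : ∀ v : ρbar.V, v ∈ W ↔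
      ∀ s ∈ S, ((s : (Module.End k ρbar.V)ˣ) : Module.End k ρbar.V) v = v := fun v => Iff.rfl
  -- stable under the decomposition group
  have hWD : ∀ δ ∈ Dp p, ∀ v ∈ W, ρbar.ρ δ v ∈ W := by
    intro δ hδ v hv s hs
    have h1 := hv _ (hconj δ hδ s hs)
    have h2 : ((χ δ : (Module.End k ρbar.V)ˣ) : Module.End k ρbar.V)
        ((((χ δ)⁻¹ * s * χ δ : (Module.End k ρbar.V)ˣ) : Module.End k ρbar.V) v) =
        ((s : (Module.End k ρbar.V)ˣ) : Module.End k ρbar.V) (ρbar.ρ δ v) := by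
      rw [← Module.End.mul_apply, ← Units.val_mul, mul_assoc, mul_inv_cancel_left,
        Units.val_mul, Module.End.mul_apply, hχ]
    rw [← h2, h1, hχ]
  -- nonzero
  have hVpos : 0 < Module.finrank k ρbar.V := by rw [ρbar.finrank_eq]; norm_num
  haveI : Finite ρbar.V := Module.finite_of_finite k
  have hdvd : p ∣ Nat.card ρbar.V := dich_dvd_card hpk hVpos
  letI act : MulAction S ρbar.V :=
    { smul := fun s v => ((s.1 : (Module.End k ρbar.V)ˣ) : Module.End k ρbar.V) v
      one_smul := fun v => rfl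
      mul_smul := fun s t v => rfl }
  have hsmul : ∀ (s : S) (v : ρbar.V),
      s • v = ((s.1 : (Module.End k ρbar.V)ˣ) : Module.End k ρbar.V) v := fun _ _ => rfl
  have h0 : (0 : ρbar.V) ∈ MulAction.fixedPoints S ρbar.V := fun s => by
    rw [hsmul, map_zero]
  obtain ⟨v, hv, hv0⟩ := hSp.exists_fixed_point_of_prime_dvd_card_of_fixed_point ρbar.V hdvd h0
  have hvW : v ∈ W := fun s hs => hv ⟨s, hs⟩
  have hv0' : v ≠ 0 := fun h => hv0 h.symm
  -- not everything
  have hWtop : W ≠ ⊤ := by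
    intro htop
    apply hne₀
    refine LinearMap.ext fun x => ?_
    have hx : x ∈ W := by rw [htop]; trivial
    have := hx _ hu₀
    rw [hχ] at this
    rw [this]; rfl
  -- a line
  have hlt : Module.finrank k W < 2 := by
    have := Submodule.finrank_lt hWtop
    rwa [ρbar.finrank_eq] at this
  have hspan : W = Submodule.span k {v} := by
    symm
    refine Submodule.eq_of_le_of_finrank_le
      ((Submodule.span_singleton_le_iff_mem v W).mpr hvW) ?_
    rw [finrank_span_singleton hv0']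
    omega
  refine ⟨v, hF k ρbar hpk v hv0' fun σ hσ => ?_⟩
  have h := hWD σ hσ v hvW
  rw [hspan, Submodule.mem_span_singleton] at h
  obtain ⟨c, hc⟩ := h
  exact ⟨c, hc.symm⟩

end Fermat.Agent.S56.SS
end MergeWrap_S56_W4_C_S_Dich

section MergeWrap_S56_W4_C_S_FpChar -- from S56/W4/C/S/FpChar.lean

set_option autoImplicit false

namespace Fermat.Agent.S56.SS

open Fermat.Agent.F4 ExtCitation Fermat.Agent.FrobExists Fermat.Agent.KFin

attribute [local instance] isAlgebraic_Qb isAlgClosure_Qb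

local notation "Kb" => AlgebraicClosure ℚ
local notation "GK" => (AlgebraicClosure ℚ ≃ₐ[ℚ] AlgebraicClosure ℚ)

/-- The order of a unit of a finite field of characteristic `p` is prime to `p`. -/
lemma fpc_orderOf_coprime (p : ℕ) [Fact p.Prime] {k : Type} [Field k] [Finite k]
    (hpk : (p : k) = 0) (u : kˣ) : (orderOf u).Coprime p := by
  classical
  haveI : Fintype k := Fintype.ofFinite k
  haveI : CharP k p := (CharP.charP_iff_prime_eq_zero (Fact.out : p.Prime)).mpr hpk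
  obtain ⟨n, -, hn⟩ := FiniteField.card k p
  have h1 : orderOf u ∣ Fintype.card kˣ := orderOf_dvd_card
  rw [Fintype.card_units, hn] at h1
  have hpos : 0 < (p : ℕ) ^ (n : ℕ) := pow_pos (Fact.out : p.Prime).pos _
  have h2 : ((p : ℕ) ^ (n : ℕ) - 1).Coprime p := by
    rw [Nat.coprime_comm, Nat.Prime.coprime_iff_not_dvd (Fact.out : p.Prime)]
    intro h
    have h3 : p ∣ (p : ℕ) ^ (n : ℕ) := dvd_pow_self p n.ne_zero
    have h4 : p ∣ (p : ℕ) ^ (n : ℕ) - ((p : ℕ) ^ (n : ℕ) - 1) := Nat.dvd_sub h3 h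
    have h5 : (p : ℕ) ^ (n : ℕ) - ((p : ℕ) ^ (n : ℕ) - 1) = 1 := by omega
    rw [h5] at h4
    exact (Fact.out : p.Prime).one_lt.ne' (Nat.dvd_one.mp h4)
  exact Nat.Coprime.coprime_dvd_left h1 h2

/-- **FPC**. -/
theorem fpCharProp (p : ℕ) [Fact p.Prime] : FpCharProp p := by
  classical
  intro k _ _ ρbar hpk v hv hD
  refine ⟨hv, ?_⟩
  have hp : p.Prime := Fact.out
  -- the eigenvalue on the line
  have huniq : ∀ c c' : k, c • v = c' • v → c = c' := by
    intro c c' h
    have h1 : (c - c') • v = 0 := by rw [sub_smul, h, sub_self]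
    rcases smul_eq_zero.mp h1 with h2 | h2
    · exact sub_eq_zero.mp h2
    · exact absurd h2 hv
  let c : ↥(Dp p) → k := fun σ => (hD σ.1 σ.2).choose
  have hc : ∀ σ : ↥(Dp p), ρbar.ρ σ.1 v = c σ • v := fun σ => (hD σ.1 σ.2).choose_spec
  let χ' : ↥(Dp p) →* k :=
    { toFun := c
      map_one' := by
        apply huniq
        rw [← hc, one_smul]
        show ρbar.ρ 1 v = v
        rw [map_one]
        rfl
      map_mul' := by
        intro σ τ
        apply huniq
        rw [← hc]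
        show ρbar.ρ (σ.1 * τ.1) v = _
        rw [map_mul, Module.End.mul_apply, hc τ, map_smul, hc σ, smul_smul, mul_comm] }
  let χ : ↥(Dp p) →* kˣ := χ'.toHomUnits
  have hχ : ∀ σ : ↥(Dp p), ((χ σ : kˣ) : k) = c σ := fun σ => rfl
  -- finite Galois level
  obtain ⟨L0, hfd0, hL0⟩ := ρbar.factorsThroughFiniteLevel
  let L : IntermediateField ℚ Kb := IntermediateField.normalClosure ℚ L0 Kb
  have hfd : FiniteDimensional ℚ L := by
    haveI := hfd0
    exact normalClosure.is_finiteDimensional ℚ L0 Kb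
  haveI hGal : IsGalois ℚ Kb := isGalois_Qb
  have hnormal : Normal ℚ L := normalClosure.normal ℚ L0 Kb
  have hgal : IsGalois ℚ L := ⟨⟩
  have hnor : L.fixingSubgroup.Normal := (InfiniteGalois.normal_iff_isGalois L).mpr hgal
  have hle : L0 ≤ L := IntermediateField.le_normalClosure L0
  have hker : ∀ γ : ↥(Dp p), (Dp p).subtype γ ∈ L.fixingSubgroup → χ γ = 1 := by
    intro γ hγ
    have h1 : ρbar.ρ γ.1 = 1 := by
      apply hL0
      intro x hx
      exact (IntermediateField.mem_fixingSubgroup_iff L γ.1).mp hγ x (hle hx)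
    apply Units.ext
    rw [hχ, Units.val_one]
    apply huniq
    rw [← hc, h1, one_smul]
    rfl
  have hA : (Pp p).LiesOverPrime p := primeLocalPlace_liesOverPrime (pPrime p)
  have hcop : ∀ γ : ↥(Dp p), (Dp p).subtype γ ∈ (Pp p).inertiaSubgroupIn ℚ →
      (orderOf (χ γ)).Coprime p := fun γ _ => fpc_orderOf_coprime p hpk (χ γ)
  obtain ⟨-, hfrob⟩ := Fermat.Agent.TameInertia.tame_inertia_hom (Dp p).subtype χ L hfd hnor hker
    p hp (Pp p) hA hcop
  obtain ⟨φ, hφ, -, -⟩ := Fermat.Agent.FrobBridge.exists_isFrobeniusAt_of_liesOver (Pp p) p hp hA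
  have hφD : φ ∈ Dp p := hφ.mem_decompositionSubgroup
  intro τ hτ
  have hτD : τ ∈ Dp p := by
    obtain ⟨d, -, rfl⟩ := hτ
    exact d.2
  have h1 := hfrob ⟨φ, hφD⟩ hφ ⟨τ, hτD⟩ hτ
  rw [map_mul, map_mul, map_inv, mul_comm, inv_mul_cancel_left] at h1
  refine ⟨c ⟨τ, hτD⟩, ?_, hc ⟨τ, hτD⟩⟩
  have h2 := congrArg (fun u : kˣ => (u : k)) h1
  simp only [Units.val_pow_eq_pow_val] at h2
  rw [hχ] at h2
  exact h2.symm

end Fermat.Agent.S56.SS
end MergeWrap_S56_W4_C_S_FpChar

section MergeWrap_S56_W4_C_S_Tame -- from S56/W4/C/S/Tame.lean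

set_option autoImplicit false
set_option linter.style.haveILetI false

namespace Fermat.Agent.S56.SS

open Fermat.Agent.F4 ExtCitation Polynomial Module

local notation "Kb" => AlgebraicClosure ℚ
local notation "GK" => (AlgebraicClosure ℚ ≃ₐ[ℚ] AlgebraicClosure ℚ)

section Core

variable {k V : Type} [Field k] [AddCommGroup V] [Module k V]

/-- Powers of an endomorphism on an eigenvector. -/
theorem tame_pow_eigen (g : Module.End k V) {v : V} {α : k} (h : g v = α • v) (n : ℕ) :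
    (g ^ n) v = α ^ n • v := by
  induction n with
  | zero => simp
  | succ n ih =>
    rw [pow_succ, Module.End.mul_apply, h, map_smul, ih, smul_smul, pow_succ, mul_comm]

/-- The abstract dichotomy: `g` of characteristic polynomial `(X - α)(X - β)` on a plane, conjugate
to `g ^ p` in characteristic `p`. -/
theorem tame_core [Module.Finite k V] (hV : Module.finrank k V = 2) (p : ℕ) [Fact p.Prime]
    (hpk : (p : k) = 0) (g h h' : Module.End k V) (hh : h' * h = 1)
    (hconj : h * g * h' = g ^ p) {α β : k}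
    (hg : LinearMap.charpoly g = (X - C α) * (X - C β)) :
    (∃ v : V, v ≠ 0 ∧ ∃ c : k, c ^ p = c ∧ g v = c • v) ∨
    ∃ (b : Basis (Fin 2) k V) (a : k), g (b 0) = a • b 0 ∧ g (b 1) = a ^ p • b 1 ∧
      a ^ (p ^ 2) = a ∧ a ≠ 0 ∧ a ^ p ≠ a := by
  have hp : p.Prime := Fact.out
  haveI : CharP k p := (CharP.charP_iff_prime_eq_zero hp).2 hpk
  haveI : Nontrivial V := Module.nontrivial_of_finrank_pos (R := k) (by rw [hV]; norm_num)
  have hinj : ∀ v : V, h v = 0 → v = 0 := by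
    intro v hv
    have := congrArg (fun f : Module.End k V => f v) hh
    simp only [Module.End.mul_apply, Module.End.one_apply] at this
    rw [hv, map_zero] at this
    exact this.symm
  -- `g ^ p (h v) = h (g v)`
  have hgp : ∀ v : V, (g ^ p) (h v) = h (g v) := by
    intro v
    rw [← hconj]
    simp only [Module.End.mul_apply]
    have := congrArg (fun f : Module.End k V => f v) hh
    simp only [Module.End.mul_apply, Module.End.one_apply] at this
    rw [this]
  by_cases hαβ : α = β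
  · -- scalar case
    subst hαβ
    left
    have hCH : (g - algebraMap k _ α) * (g - algebraMap k _ α) = 0 := by
      have := LinearMap.aeval_self_charpoly g
      rw [hg, map_mul, map_sub, aeval_X, aeval_C] at this
      exact this
    obtain ⟨v, hv⟩ := exists_ne (0 : V)
    -- `g ^ p = α ^ p`
    have hNp : (g - algebraMap k _ α) ^ p = 0 := by
      have h2 : 2 ≤ p := hp.two_le
      obtain ⟨m, rfl⟩ := Nat.exists_eq_add_of_le h2
      rw [pow_add, pow_two, hCH, zero_mul]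
    haveI : CharP (Module.End k V) p :=
      charP_of_injective_algebraMap (FaithfulSMul.algebraMap_injective k (Module.End k V)) p
    have hgpow : g ^ p = algebraMap k _ (α ^ p) := by
      have hcomm : Commute g (algebraMap k (Module.End k V) α) :=
        (Algebra.commutes α g).symm
      have := sub_pow_char_of_commute (R := Module.End k V) p hcomm
      rw [hNp, ← map_pow] at this
      exact (sub_eq_zero.1 this.symm)
    -- `g` is the scalar `α ^ p`
    have hgs : ∀ w : V, g w = α ^ p • w := by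
      intro w
      have h1 := hgp w
      rw [hgpow, Module.algebraMap_end_apply] at h1
      have h2 : h (α ^ p • w) = h (g w) := by rw [map_smul]; exact h1
      have h3 : h (α ^ p • w - g w) = 0 := by rw [map_sub, h2, sub_self]
      exact (sub_eq_zero.1 (hinj _ h3)).symm
    -- `α ^ p = α`
    have hαp : α ^ p = α := by
      have h1 := congrArg (fun f : Module.End k V => f v) hCH
      simp only [Module.End.mul_apply, LinearMap.sub_apply, Module.algebraMap_end_apply,
        LinearMap.zero_apply, hgs, map_sub, map_smul] at h1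
      have h2 : ((α ^ p - α) * (α ^ p - α)) • v = 0 := by
        rw [← h1]
        module
      rcases smul_eq_zero.1 h2 with h3 | h3
      · exact sub_eq_zero.1 (mul_self_eq_zero.1 h3)
      · exact absurd h3 hv
    exact ⟨v, hv, α, hαp, by rw [hgs, hαp]⟩
  · -- two eigenvalues
    obtain ⟨b, hb0, hb1⟩ := TWLin.exists_eigenbasis hV g hαβ hg
    have key : ∀ (i : Fin 2) (γ : k), g (b i) = γ • b i → α ^ p = γ ∨ β ^ p = γ := by
      intro i γ hi
      have h1 := hgp (b i)
      rw [hi, map_smul] at h1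
      have hrep : h (b i) = b.repr (h (b i)) 0 • b 0 + b.repr (h (b i)) 1 • b 1 := by
        conv_lhs => rw [← b.sum_repr (h (b i))]
        rw [Fin.sum_univ_two]
      set x := b.repr (h (b i)) 0
      set y := b.repr (h (b i)) 1
      rw [hrep, map_add, map_smul, map_smul, tame_pow_eigen g hb0, tame_pow_eigen g hb1,
        smul_add, smul_smul, smul_smul, smul_smul, smul_smul] at h1
      have e0 := congrArg (fun w => b.repr w 0) h1
      have e1 := congrArg (fun w => b.repr w 1) h1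
      simp only [TWLin.repr_comb_zero, TWLin.repr_comb_one] at e0 e1
      have hxy : x ≠ 0 ∨ y ≠ 0 := by
        by_contra hcon
        push Not at hcon
        have : h (b i) = 0 := by rw [hrep, hcon.1, hcon.2, zero_smul, zero_smul, add_zero]
        exact b.ne_zero i (hinj _ this)
      rcases hxy with hx | hy
      · left
        exact mul_left_cancel₀ hx (e0.trans (mul_comm γ x))
      · right
        exact mul_left_cancel₀ hy (e1.trans (mul_comm γ y))
    have k0 := key 0 α hb0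
    have k1 := key 1 β hb1
    by_cases ha : α ^ p = α
    · exact Or.inl ⟨b 0, b.ne_zero 0, α, ha, hb0⟩
    by_cases hbb : β ^ p = β
    · exact Or.inl ⟨b 1, b.ne_zero 1, β, hbb, hb1⟩
    have hβα : β ^ p = α := k0.resolve_left ha
    have hαβ' : α ^ p = β := k1.resolve_right hbb
    refine Or.inr ⟨b, α, hb0, by rw [hαβ']; exact hb1, ?_, ?_, ha⟩
    · rw [pow_two, pow_mul, hαβ', hβα]
    · intro h0
      apply hαβ
      rw [← hαβ', h0, zero_pow hp.ne_zero]

end Core

/-- **TAME**. -/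
theorem tameDichProp (p : ℕ) [Fact p.Prime] : TameDichProp p := by
  intro k _ _ ρbar hpk hsplit htame
  have hp : p.Prime := Fact.out
  obtain ⟨U, ⟨F, hFfd, hFst, rfl⟩, hU⟩ := Fermat.Agent.S56.exists_level_ρ_eq_one ρbar
  have hnor : F.fixingSubgroup.Normal := hFst.normal_fixingSubgroup
  let χ : GK →* (Module.End k ρbar.V)ˣ := ρbar.ρ.toHomUnits
  have hχ : ∀ σ : GK, ((χ σ : (Module.End k ρbar.V)ˣ) : Module.End k ρbar.V) = ρbar.ρ σ :=
    fun σ => rfl
  have hker : ∀ γ : GK, (MonoidHom.id GK) γ ∈ F.fixingSubgroup → χ γ = 1 := fun γ hγ =>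
    Units.ext (by rw [hχ]; exact hU γ hγ)
  have hA : (Pp p).LiesOverPrime p := Fermat.Agent.S56.primeLocalPlace_liesOverPrime (pPrime p)
  haveI : Finite ρbar.V := Module.finite_of_finite k
  haveI : Finite (Module.End k ρbar.V) :=
    Finite.of_injective (fun e : Module.End k ρbar.V => (e : ρbar.V → ρbar.V))
      DFunLike.coe_injective
  have hcop : ∀ γ : GK, (MonoidHom.id GK) γ ∈ Ip p → (orderOf (χ γ)).Coprime p := by
    intro γ hγ
    rw [Nat.coprime_comm, Nat.Prime.coprime_iff_not_dvd hp]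
    rintro ⟨m, hm⟩
    have hpos : 0 < orderOf (χ γ) := orderOf_pos _
    have hm0 : 0 < m := by
      rcases Nat.eq_zero_or_pos m with h0 | h0
      · rw [h0, mul_zero] at hm; omega
      · exact h0
    have hlt : m < orderOf (χ γ) := by
      rw [hm]
      have := hp.two_le
      nlinarith
    have hne : χ γ ^ m ≠ 1 := pow_ne_one_of_lt_orderOf hm0.ne' hlt
    apply hne
    have hmem : γ ^ m ∈ Ip p := Subgroup.pow_mem _ hγ m
    have h1 : (ρbar.ρ (γ ^ m)) ^ p ^ 1 = 1 := by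
      rw [pow_one, ← map_pow, ← pow_mul, mul_comm, ← hm, ← hχ, map_pow, pow_orderOf_eq_one]
      rfl
    have h2 := htame (γ ^ m) hmem 1 h1
    apply Units.ext
    rw [← map_pow, hχ, h2]
    rfl
  obtain ⟨⟨τ₀, hτ₀, hgen⟩, hfrob⟩ := Fermat.Agent.TameInertia.tame_inertia_hom
    (MonoidHom.id GK) χ F hFfd hnor hker p hp (Pp p) hA hcop
  obtain ⟨φ, hφ⟩ := Fermat.Agent.S56.TWGen.exists_isFrobeniusAt (Pp p) p hp hA
  have hconj := hfrob φ hφ τ₀ hτ₀
  have hconj' : ρbar.ρ φ * ρbar.ρ τ₀ * ρbar.ρ φ⁻¹ = ρbar.ρ τ₀ ^ p := by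
    have := congrArg Units.val hconj
    rw [hχ, map_mul, map_mul] at this
    rw [this]
    rfl
  have hgen' : ∀ σ ∈ Ip p, ∃ n : ℕ, ρbar.ρ σ = ρbar.ρ τ₀ ^ n := by
    intro σ hσ
    obtain ⟨n, hn⟩ := hgen σ hσ
    refine ⟨n, ?_⟩
    have := congrArg Units.val hn
    rw [hχ] at this
    rw [this]
    rfl
  obtain ⟨α, β, hαβ⟩ := hsplit τ₀
  rcases tame_core ρbar.finrank_eq p hpk (ρbar.ρ τ₀) (ρbar.ρ φ) (ρbar.ρ φ⁻¹)
    (by rw [← map_mul, inv_mul_cancel, map_one]) hconj' hαβ with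
    ⟨v, hv, c, hc, hgv⟩ | ⟨b, a, hb0, hb1, ha2, ha0, hap⟩
  · left
    refine ⟨v, hv, fun σ hσ => ?_⟩
    obtain ⟨n, hn⟩ := hgen' σ hσ
    refine ⟨c ^ n, ?_, ?_⟩
    · rw [← pow_mul, mul_comm, pow_mul, hc]
    · rw [hn, tame_pow_eigen _ hgv]
  · right
    have hψ : ∀ (σ : GK) (n : ℕ), ρbar.ρ σ = ρbar.ρ τ₀ ^ n →
        b.repr (ρbar.ρ σ (b 0)) 0 = a ^ n := by
      intro σ n hn
      rw [hn, tame_pow_eigen _ hb0, map_smul, Finsupp.smul_apply, Basis.repr_self,
        Finsupp.single_eq_same, smul_eq_mul, mul_one]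
    refine ⟨{ b := b
              ψ := fun σ => b.repr (ρbar.ρ σ (b 0)) 0
              diag0 := ?_
              diag1 := ?_
              fp2 := ?_
              τ := τ₀
              τ_mem := hτ₀
              gen := ?_
              ne_zero := ?_
              not_fp := ?_ }⟩
    · intro σ hσ
      obtain ⟨n, hn⟩ := hgen' σ hσ
      show ρbar.ρ σ (b 0) = b.repr (ρbar.ρ σ (b 0)) 0 • b 0
      rw [hψ σ n hn, hn, tame_pow_eigen _ hb0]
    · intro σ hσ
      obtain ⟨n, hn⟩ := hgen' σ hσ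
      show ρbar.ρ σ (b 1) = (b.repr (ρbar.ρ σ (b 0)) 0) ^ p • b 1
      rw [hψ σ n hn, hn, tame_pow_eigen _ hb1, ← pow_mul, ← pow_mul, mul_comm]
    · intro σ hσ
      obtain ⟨n, hn⟩ := hgen' σ hσ
      show (b.repr (ρbar.ρ σ (b 0)) 0) ^ (p ^ 2) = b.repr (ρbar.ρ σ (b 0)) 0
      rw [hψ σ n hn, ← pow_mul, mul_comm, pow_mul, ha2]
    · intro σ hσ
      obtain ⟨n, hn⟩ := hgen' σ hσ
      refine ⟨n, ?_⟩
      show b.repr (ρbar.ρ σ (b 0)) 0 = (b.repr (ρbar.ρ τ₀ (b 0)) 0) ^ n
      rw [hψ σ n hn, hψ τ₀ 1 (pow_one _).symm, pow_one]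
    · show b.repr (ρbar.ρ τ₀ (b 0)) 0 ≠ 0
      rw [hψ τ₀ 1 (pow_one _).symm, pow_one]
      exact ha0
    · show (b.repr (ρbar.ρ τ₀ (b 0)) 0) ^ p ≠ b.repr (ρbar.ρ τ₀ (b 0)) 0
      rw [hψ τ₀ 1 (pow_one _).symm, pow_one]
      exact hap

end Fermat.Agent.S56.SS
end MergeWrap_S56_W4_C_S_Tame

section MergeWrap_S56_W4_C_S_Wild -- from S56/W4/C/S/Wild.lean

set_option autoImplicit false

namespace Fermat.Agent.S56.SS

open NumberField Fermat.Agent.FrobExists Fermat.Agent.KFin Fermat.Agent.TameInertia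
open scoped Pointwise

attribute [local instance] isAlgebraic_Qb isAlgClosure_Qb

section Finite

variable {R : Type*} [CommRing R] [IsDedekindDomain R] {G : Type*} [Group G] [Finite G]
  [MulSemiringAction G R] [FaithfulSMul G R]

/-- Finite level: the elements of `q`-power order of a group of inertia elements form a subgroup
(the kernel of the tame character). -/
theorem wild_exists_subgroup_finite (P : Ideal R) (hP : P.IsMaximal) (hP0 : P ≠ ⊥) (q : ℕ)
    (hq : q.Prime) (hqP : (q : R) ∈ P) (Ibar : Subgroup G)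
    (hI : ∀ σ ∈ Ibar, ∀ x : R, σ • x - x ∈ P) :
    ∃ W : Subgroup G, ∀ σ : G, σ ∈ W ↔ σ ∈ Ibar ∧ ∃ a : ℕ, σ ^ q ^ a = 1 := by
  obtain ⟨π, hπ, hπ2⟩ := SetLike.exists_of_lt (Ideal.pow_lt_self P hP0 hP.ne_top 2 le_rfl)
  have hex : ∀ σ : Ibar, ∃ u : R, IsTameVal P π (σ : G) u :=
    fun σ => exists_isTameVal hP hP0 hπ hπ2 (hI σ σ.2)
  let θ : Ibar →* R ⧸ P :=
    { toFun := fun σ => Ideal.Quotient.mk P (hex σ).choose
      map_one' := by
        rw [← map_one (Ideal.Quotient.mk P), Ideal.Quotient.eq]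
        exact (hex 1).choose_spec.unique hP hπ hπ2 (isTameVal_one P π)
      map_mul' := by
        intro σ τ
        rw [← map_mul, Ideal.Quotient.eq]
        exact (hex (σ * τ)).choose_spec.unique hP hπ hπ2
          ((hex σ).choose_spec.mul hP hP0 hπ hπ2 (hI σ σ.2) (hI τ τ.2) (hex τ).choose_spec) }
  have hθ : ∀ s : Ibar, θ s = Ideal.Quotient.mk P (hex s).choose := fun _ => rfl
  refine ⟨θ.ker.map Ibar.subtype, fun σ => ?_⟩
  constructor
  · rintro ⟨s, hs, rfl⟩
    refine ⟨s.2, ?_⟩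
    rw [SetLike.mem_coe, MonoidHom.mem_ker, hθ] at hs
    have h1 : (hex s).choose - 1 ∈ P := by
      rw [← Ideal.Quotient.eq, map_one]
      exact hs
    exact exists_pow_prime_pow_eq_one hP hP0 hπ hπ2 q hq hqP (hI s s.2) (hex s).choose_spec h1
  · rintro ⟨hσ, a, ha⟩
    refine ⟨⟨σ, hσ⟩, ?_, rfl⟩
    rw [SetLike.mem_coe, MonoidHom.mem_ker]
    have h1 : θ ⟨σ, hσ⟩ ^ q ^ a = 1 := by
      rw [← map_pow]
      have h0 : (⟨σ, hσ⟩ : Ibar) ^ q ^ a = 1 := Subtype.ext (by simpa using ha)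
      rw [h0, map_one]
    let _ : Field (R ⧸ P) := Ideal.Quotient.field P
    have : Fact q.Prime := ⟨hq⟩
    have : CharP (R ⧸ P) q := (CharP.charP_iff_prime_eq_zero hq).mpr (by
      rw [← map_natCast (Ideal.Quotient.mk P), Ideal.Quotient.eq_zero_iff_mem]
      exact hqP)
    have h2 : (θ ⟨σ, hσ⟩ - 1) ^ q ^ a = 0 := by
      rw [sub_pow_char_pow, one_pow, h1, sub_self]
    exact sub_eq_zero.mp (pow_eq_zero_iff (pow_ne_zero _ hq.ne_zero) |>.mp h2)

end Finite

local notation "Kb" => AlgebraicClosure ℚ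
local notation "GK" => (AlgebraicClosure ℚ ≃ₐ[ℚ] AlgebraicClosure ℚ)

/-- **WILD**: the elements of `q`-power order of the image of inertia form a subgroup. -/
theorem wildSubProp : WildSubProp := by
  intro q hq A hA H _ χ hlev
  obtain ⟨L₀, hfd₀, hker₀⟩ := hlev
  have hGal : IsGalois ℚ Qb := isGalois_Qb
  have : Normal ℚ Qb := IsGalois.to_normal
  let L : IntermediateField ℚ Qb := IntermediateField.normalClosure ℚ L₀ Qb
  have hfd : FiniteDimensional ℚ L := normalClosure.is_finiteDimensional ℚ L₀ Qb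
  have hnormal : Normal ℚ L := normalClosure.normal ℚ L₀ Qb
  have hle : L₀ ≤ L := IntermediateField.le_normalClosure L₀
  have hker : ∀ σ : GQ, σ ∈ L.fixingSubgroup → χ σ = 1 := by
    intro σ hσ
    apply hker₀
    intro x hx
    exact (IntermediateField.mem_fixingSubgroup_iff L σ).mp hσ x (hle hx)
  let rL : GQ →* (L ≃ₐ[ℚ] L) := AlgEquiv.restrictNormalHom L
  have hkerL : rL.ker = L.fixingSubgroup :=
    @IntermediateField.restrictNormalHom_ker ℚ Qb _ _ _ L hnormal
  have hker' : rL.ker ≤ χ.ker := by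
    intro γ hγ
    rw [MonoidHom.mem_ker]
    apply hker
    rw [← hkerL]
    exact hγ
  have hnf : NumberField L := { to_charZero := inferInstance, to_finiteDimensional := hfd }
  have hfaith : FaithfulSMul (L ≃ₐ[ℚ] L) (𝓞 L) := faithfulSMul_ringOfIntegers L
  let ι : 𝓞 L →+* A :=
    { toFun := fun x => ⟨((x : L) : Qb), mem_valuationSubring_of_isIntegral A
        (x.isIntegral_coe.map (IsScalarTower.toAlgHom ℤ L Qb))⟩
      map_one' := rfl
      map_mul' := fun _ _ => rfl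
      map_zero' := rfl
      map_add' := fun _ _ => rfl }
  let P : Ideal (𝓞 L) := Ideal.comap ι (IsLocalRing.maximalIdeal A)
  have hPprime : P.IsPrime := Ideal.comap_isPrime _ _
  have hmemP : ∀ y : 𝓞 L, y ∈ P ↔ (((y : L) : Qb)) ∈ A.nonunits := by
    intro y
    rw [Ideal.mem_comap, ← ValuationSubring.coe_mem_nonunits_iff]
    rfl
  have hmemA : ∀ y : 𝓞 L, (((y : L) : Qb)) ∈ A := fun y => (ι y).2
  have hqP : ((q : ℕ) : 𝓞 L) ∈ P := by
    rw [hmemP]
    have : (((q : 𝓞 L) : L) : Qb) = (q : Qb) := by simp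
    rw [this]
    exact hA
  have hP0 : P ≠ ⊥ := by
    intro h
    rw [h, Ideal.mem_bot] at hqP
    exact hq.ne_zero (by exact_mod_cast hqP)
  have hPmax : P.IsMaximal := hPprime.isMaximal hP0
  have hcoe : ∀ (σ : GQ) (x : 𝓞 L), ((((rL σ) • x : 𝓞 L) : L) : Qb) = σ ((x : L) : Qb) := by
    intro σ x
    exact AlgEquiv.restrictNormal_commutes σ L (x : L)
  let Ibar : Subgroup (L ≃ₐ[ℚ] L) := (A.inertiaSubgroupIn ℚ).map rL
  have hI : ∀ s ∈ Ibar, ∀ x : 𝓞 L, s • x - x ∈ P := by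
    rintro _ ⟨γ, hγ, rfl⟩ x
    rw [hmemP]
    have h1 := ((kf_mem_inertiaSubgroupIn_iff A γ).mp hγ).2 _ (hmemA x)
    rw [← hcoe γ x] at h1
    exact h1
  obtain ⟨W, hW⟩ := wild_exists_subgroup_finite P hPmax hP0 q hq hqP Ibar hI
  refine ⟨((A.inertiaSubgroupIn ℚ) ⊓ W.comap rL).map χ, fun h => ?_⟩
  constructor
  · rintro ⟨σ, ⟨hσI, hσW⟩, rfl⟩
    obtain ⟨-, a, ha⟩ := (hW _).mp hσW
    refine ⟨⟨a, ?_⟩, σ, hσI, rfl⟩
    rw [← map_pow, ← MonoidHom.mem_ker]
    apply hker'
    rw [MonoidHom.mem_ker, map_pow]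
    exact ha
  · rintro ⟨⟨a, ha⟩, σ, hσI, rfl⟩
    have hx : rL σ ∈ Ibar := ⟨σ, hσI, rfl⟩
    obtain ⟨b, m, hm, hn⟩ :=
      Nat.exists_eq_pow_mul_and_not_dvd (orderOf_pos (rL σ)).ne' q hq.ne_one
    have hcop : Nat.Coprime m (q ^ a) :=
      Nat.Coprime.pow_right a ((Nat.Prime.coprime_iff_not_dvd hq).mpr hm).symm
    obtain ⟨N, hN0, hN1⟩ := Nat.chineseRemainder hcop 0 1
    have hmN : m ∣ N := (Nat.modEq_zero_iff_dvd).mp hN0
    refine ⟨σ ^ N, ⟨Subgroup.pow_mem _ hσI N, ?_⟩, ?_⟩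
    · show rL (σ ^ N) ∈ W
      rw [map_pow, hW]
      refine ⟨Ibar.pow_mem hx N, b, ?_⟩
      rw [← pow_mul]
      apply orderOf_dvd_iff_pow_eq_one.mp
      rw [hn, mul_comm N]
      exact Nat.mul_dvd_mul_left _ hmN
    · rw [map_pow]
      have h1 : orderOf (χ σ) ∣ q ^ a := orderOf_dvd_of_pow_eq_one ha
      have h2 : N ≡ 1 [MOD orderOf (χ σ)] := hN1.of_dvd h1
      have := pow_eq_pow_iff_modEq.mpr h2
      rw [this, pow_one]

end Fermat.Agent.S56.SS
end MergeWrap_S56_W4_C_S_Wild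

section MergeWrap_S56_W4_C_S_Final -- from S56/W4/C/S/Final.lean

set_option autoImplicit false

namespace Fermat.Agent.S56.SS

local notation "Kb" => AlgebraicClosure ℚ

/-- `DichProp p`, unconditional (WILD + FPC + TAME + DICH). -/
theorem dichProp (p : ℕ) [Fact p.Prime] : DichProp p :=
  dichProp_of p wildSubProp (fpCharProp p) (tameDichProp p)

/-- `OrdCharProp p P`, unconditional (ORD-C + the TR leaf `valOrbitProp`). -/
theorem ordCharProp (p : ℕ) (P : ValuationSubring Kb) : OrdCharProp p P :=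
  ordCharProp_of p P (valOrbitProp p P)

/-- `NoFpEigenProp p`, unconditional (NOA + FIX + SUB + block D). -/
theorem noFpEigenProp (p : ℕ) [Fact p.Prime] : NoFpEigenProp p :=
  noFpEigenProp_of p (orderPProp p (Pp p)) (noFixedProp p (Pp p)) (subOrdProp p (Pp p))

/-- `OrdProp p`, unconditional (ORD + SUB + ORD-M + ORD-C + block D). -/
theorem ordProp (p : ℕ) [Fact p.Prime] : OrdProp p :=
  ordProp_of p (t3Prop p (Pp p)) (subOrdProp p (Pp p)) (ordModuleProp p) (ordCharProp p (Pp p))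

/-- **Block S closed**: the structure theorem `SStructProp p`, unconditional. -/
theorem sStructProp (p : ℕ) [Fact p.Prime] : SStructProp p :=
  sStructProp_of_leaves p (dichProp p) (noFpEigenProp p) (ordProp p)

end Fermat.Agent.S56.SS
end MergeWrap_S56_W4_C_S_Final
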