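import Fermat.Agent.MU.S56.W4.C.Defs

section MergeWrap_S56_W4_C_S_Defs -- from S56/W4/C/S/Defs.lean

set_option autoImplicit false

namespace Fermat.Agent.S56.SS

open Fermat.Agent.F4 ExtCitation Fermat.Agent.FFL Fermat.Agent.FlatMod

local notation "Kb" => AlgebraicClosure ℚ
local notation "GK" => (AlgebraicClosure ℚ ≃ₐ[ℚ] AlgebraicClosure ℚ)

/-! ### Leaves on flat modules (no representation) -/

/-- **FIX**: a flat Galois module all of whose points are in `augI` (no inertia coinvariants) has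
no nonzero inertia-fixed point.  [`mainProp` gives `redKer = augI = W`; a fixed point `w ≠ 0`
of prime order `ℓ` gives functions on `ℤ/ℓ` with `f 1 - f 0 ∈ 𝔪 ∩ R' = p R'` (`unrProp`), against
`coreProp`; the indicator functions come from `spanB_full`.] -/
def NoFixedProp (p : ℕ) (P : ValuationSubring Kb) : Prop :=
  p.Prime → p ≠ 2 → P.LiesOverPrime p →
  ∀ (W : Type) [AddCommGroup W] (act : GK → W → W), IsFlatGaloisModule p W act →
    (∀ w : W, w ∈ augI P act) →
    ∀ w : W, (∀ σ ∈ P.inertiaSubgroupIn ℚ, act σ w = w) → w = 0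

/-- **SUB**: the restriction of (the `R'`-span of) a Hopf order to a subgroup `N` stable under
inertia is an `I`-order on `N`; its functions are `≡ f 0` modulo `𝔪_P` at the points of `augI`. -/
def SubOrdProp (p : ℕ) (P : ValuationSubring Kb) : Prop :=
  p.Prime → P.LiesOverPrime p →
  ∀ (W : Type) [AddCommGroup W] (act : GK → W → W), IsFlatGaloisModule p W act →
  ∀ (N : AddSubgroup W) (actN : GK → N → N),
    (∀ σ ∈ P.inertiaSubgroupIn ℚ, ∀ n : N, ((actN σ n : N) : W) = act σ (n : W)) →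
    ∃ O : IOrd P N actN,
      ∀ n : N, (n : W) ∈ augI P act → ∀ f ∈ O.alg, f n - f 0 ∈ P.nonunits

/-! ### Leaves on inertia (no flatness) -/

/-- **WILD**: for a homomorphism `χ` of `G_ℚ` of finite level, the elements of `q`-power order of
`χ(I)` (`I` the inertia group of a place over `q`) form a subgroup.  [Lib/TameInertia: at the
finite level it is the image of the kernel of the tame character, `exists_pow_prime_pow_eq_one`.] -/
def WildSubProp : Prop :=
  ∀ (q : ℕ), q.Prime → ∀ (A : ValuationSubring Kb), A.LiesOverPrime q →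
  ∀ (H : Type) [Group H] (χ : GK →* H),
    (∃ L : IntermediateField ℚ Kb, FiniteDimensional ℚ L ∧
      ∀ σ : GK, (∀ x ∈ L, σ x = x) → χ σ = 1) →
    ∃ S : Subgroup H, ∀ h : H, h ∈ S ↔
      (∃ a : ℕ, h ^ q ^ a = 1) ∧ ∃ σ ∈ A.inertiaSubgroupIn ℚ, χ σ = h

variable (p : ℕ) [Fact p.Prime]

/-- `v` is an eigenvector of inertia with a character with values in `𝔽_p`. -/
def IsFpEigen {k : Type} [Field k] (ρbar : ResidualGaloisRep k) (v : ρbar.V) : Prop :=
  v ≠ 0 ∧ ∀ σ ∈ Ip p, ∃ c : k, c ^ p = c ∧ ρbar.ρ σ v = c • v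

/-- **FPC**: if the line `k v` is stable under the decomposition group at `p`, inertia acts on it
through a character with values in `𝔽_p`.  [`local_tame` / `tame_inertia_hom` for the character
of `D` on the line: `χ(φ τ φ⁻¹) = χ(τ)^p`, and the target is commutative; a Frobenius element
exists.] -/
def FpCharProp : Prop :=
  ∀ (k : Type) [Field k] [Finite k] (ρbar : ResidualGaloisRep k), (p : k) = 0 →
    ∀ v : ρbar.V, v ≠ 0 → (∀ σ ∈ Dp p, ∃ c : k, ρbar.ρ σ v = c • v) → IsFpEigen p ρbar v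

/-- The supersingular shape of tame inertia: an eigenbasis with characters `ψ, ψ^p`, `ψ` with
values in `𝔽_{p²}`, not all in `𝔽_p`, inertia acting through the powers of `τ`. -/
structure SSTame {k : Type} [Field k] (ρbar : ResidualGaloisRep k) where
  b : Module.Basis (Fin 2) k ρbar.V
  ψ : GK → k
  diag0 : ∀ σ ∈ Ip p, ρbar.ρ σ (b 0) = ψ σ • b 0
  diag1 : ∀ σ ∈ Ip p, ρbar.ρ σ (b 1) = (ψ σ) ^ p • b 1
  fp2 : ∀ σ ∈ Ip p, (ψ σ) ^ (p ^ 2) = ψ σ
  τ : GK
  τ_mem : τ ∈ Ip p
  gen : ∀ σ ∈ Ip p, ∃ n : ℕ, ψ σ = (ψ τ) ^ n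
  ne_zero : ψ τ ≠ 0
  not_fp : (ψ τ) ^ p ≠ ψ τ

/-- The characteristic polynomials of `ρbar` split over `k`. -/
def SplitCharpoly {k : Type} [Field k] (ρbar : ResidualGaloisRep k) : Prop :=
  ∀ σ : GK, ∃ α β : k, LinearMap.charpoly (ρbar.ρ σ) =
    (Polynomial.X - Polynomial.C α) * (Polynomial.X - Polynomial.C β)

/-- **TAME**: if no `ρbar σ ≠ 1`, `σ` in inertia, has `p`-power order, then inertia has an
eigenvector with `𝔽_p`-valued character or `ρbar` has the shape `SSTame`.
[`tame_inertia_hom`: `ρbar(I)` is generated by `g = ρbar τ` and `g` is conjugate to `g^p`; `g` has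
order prime to `p` and split characteristic polynomial, so it is diagonalisable with eigenvalues
`{α, β} = {α^p, β^p}`.] -/
def TameDichProp : Prop :=
  ∀ (k : Type) [Field k] [Finite k] (ρbar : ResidualGaloisRep k), (p : k) = 0 →
    SplitCharpoly ρbar →
    (∀ σ ∈ Ip p, ∀ a : ℕ, (ρbar.ρ σ) ^ p ^ a = 1 → ρbar.ρ σ = 1) →
    (∃ v : ρbar.V, IsFpEigen p ρbar v) ∨ Nonempty (SSTame p ρbar)

/-- **DICH**: inertia has an eigenvector with `𝔽_p`-valued character or `ρbar` has the shape
`SSTame`.  [Not tame: the `p`-power order elements of `ρbar(I)` form a nontrivial `p`-group `S`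
(WILD), normalised by `ρbar(D)`; `V^S` is a line stable under `D`; FPC.  Tame: TAME.] -/
def DichProp : Prop :=
  ∀ (k : Type) [Field k] [Finite k] (ρbar : ResidualGaloisRep k), (p : k) = 0 →
    SplitCharpoly ρbar →
    (∃ v : ρbar.V, IsFpEigen p ρbar v) ∨ Nonempty (SSTame p ρbar)

/-! ### Leaves using flatness -/

/-- **NOA**: `ρbar` flat at `p`, without inertia coinvariants, with cyclotomic determinant: inertia
has no eigenvector with `𝔽_p`-valued character.  [`W₁ = 𝔽_p v` is inertia-stable of order `p`: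
SUB + `OrderPProp`: inertia acts on `v` trivially (against FIX) or through the cyclotomic
character; then it acts trivially on `V / k v` (determinant), so `augI ⊆ k v`.] -/
def NoFpEigenProp : Prop :=
  ∀ (k : Type) [Field k] [Finite k] (ρbar : ResidualGaloisRep k), p ≠ 2 →
    (GaloisRepAdic.ofResidualGaloisRep ρbar).DetIsCyclotomic p →
    IsFlatGaloisModule p ρbar.V (actOf ρbar) →
    (∀ v : ρbar.V, v ∈ augI (Pp p) (actOf ρbar)) →
    ∀ v : ρbar.V, ¬ IsFpEigen p ρbar v

/-- **ORD**: a flat `ρbar` of shape `SSTame` without inertia coinvariants has a supersingular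
structure: `ψ τ` has order `p² - 1` and `ϖ = Z(b 0)`.  [`W = 𝔽_p b₀ + 𝔽_p ψ(τ) b₀` is simple of
order `p²`: SUB + `T3Prop`: inertia is transitive on `W \ 0`, and `Z`.  `ϖ_char`: all `Y ∈ O`,
`a ≠ 0` have `(Y a - Y 0) / ϖ ∈ P` (norm to `R'` + `unrProp`), so `Z` is additive modulo `𝔪 ϖ`
(comultiplication, connectedness from SUB), and `ψ(τ)² = t ψ(τ) - n`.] -/
def OrdProp : Prop :=
  ∀ (k : Type) [Field k] [Finite k] (ρbar : ResidualGaloisRep k), p ≠ 2 → (p : k) = 0 →
    IsFlatGaloisModule p ρbar.V (actOf ρbar) →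
    (∀ v : ρbar.V, v ∈ augI (Pp p) (actOf ρbar)) →
    SSTame p ρbar → Nonempty (SSStruct p ρbar)

end Fermat.Agent.S56.SS
end MergeWrap_S56_W4_C_S_Defs
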